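import Fermat.Agent.LT2.Defs
import Fermat.Agent.EllReducible.Basic
import Fermat.Agent.EllReduction.Api
import Fermat.Agent.EllTorsion.Card
import Fermat.Agent.EllTorsion.FiniteLevel
import Fermat.Agent.Carayol.MatchRamified
import Fermat.Agent.Carayol.MatchUnipotent
import Fermat.Agent.Galois.Cyclotomic

/-!
# An element acting as minus the identity on the 3-torsion and fixing the fifth roots of unity

Inertia at `2` gives a transvection fixing `μ₅`; with a conjugate having another fixed line it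
generates `SL₂(𝔽₃)`, which contains `-1`.
-/

set_option autoImplicit false

open WeierstrassCurve WeierstrassCurve.Affine.Point Matrix
open FLTA.EllReducible

open scoped WeierstrassCurve.Affine

noncomputable section

namespace FLTA.Full

noncomputable local instance : DecidableEq (AlgebraicClosure ℚ) := Classical.decEq _

local notation "Qbar" => AlgebraicClosure ℚ
local notation "Γℚ" => AlgebraicClosure ℚ ≃ₐ[ℚ] AlgebraicClosure ℚ
local notation "M₃" => Matrix (Fin 2) (Fin 2) (ZMod 3)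

/-- Two transvections with different fixed lines have `-1` among the squares of short words. -/
theorem neg_one_of_transvections : ∀ M : M₃, (M - 1) * (M - 1) = 0 → M ≠ 1 →
    ∀ N : M₃, (N - 1) * (N - 1) = 0 → (M - 1) * (N - 1) ≠ 0 →
      (M * N * M) * (M * N * M) = -1 ∨ (M * N * N * M) * (M * N * N * M) = -1 := by
  set_option maxRecDepth 100000 in decide

/-- A matrix mapping the line of a nilpotent into itself commutes with it up to a scalar. -/
theorem exists_scalar_of_stable : ∀ X : M₃, X ≠ 0 → X * X = 0 →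
    ∀ G : M₃, X * G * X = 0 → ∃ c : ZMod 3, G * X = c • X := by
  set_option maxRecDepth 100000 in decide

variable {W : WeierstrassCurve ℤ}

theorem nonempty_equiv3 (hΔ : W.Δ ≠ 0) :
    Nonempty (Tors (W.map (Int.castRingHom ℚ)) 3 ≃+ (Fin 2 → ZMod 3)) := by
  have : (W.map (Int.castRingHom ℚ)).IsElliptic :=
    ⟨by rw [WeierstrassCurve.map_Δ, isUnit_iff_ne_zero]; simpa using hΔ⟩
  exact EllTorsion.nonempty_torsionBy_addEquiv
    ((W.map (Int.castRingHom ℚ)).map (algebraMap ℚ Qbar)) (n := 3)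
    (by norm_num)

variable (hΔ : W.Δ ≠ 0)

/-- A chosen basis of `E[3]`. -/
def equiv3 : Tors (W.map (Int.castRingHom ℚ)) 3 ≃ₗ[ZMod 3] (Fin 2 → ZMod 3) :=
  (nonempty_equiv3 hΔ).some.toLinearEquiv fun c x =>
    ZMod.map_smul (nonempty_equiv3 hΔ).some c x

/-- The mod 3 representation. -/
def rep3 : Γℚ →* M₃ :=
  (LinearMap.toMatrixAlgEquiv
      (Module.Basis.ofEquivFun (equiv3 hΔ))).toAlgHom.toRingHom.toMonoidHom.comp
    (galoisRepModuleEnd (K := Qbar) ℚ (W.map (Int.castRingHom ℚ)) 3)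

theorem equiv3_smul (σ : Γℚ) (x : Tors (W.map (Int.castRingHom ℚ)) 3) :
    equiv3 hΔ (σ • x) = rep3 hΔ σ *ᵥ equiv3 hΔ x := by
  have h := LinearMap.toMatrix_mulVec_repr (Module.Basis.ofEquivFun (equiv3 hΔ))
    (Module.Basis.ofEquivFun (equiv3 hΔ))
    (galoisRepModuleEnd (K := Qbar) ℚ (W.map (Int.castRingHom ℚ)) 3 σ) x
  exact (funext fun i => (congrFun h i).symm)

theorem rep3_finiteLevel : GaloisFactorsThroughFiniteLevel (rep3 hΔ) := by
  obtain ⟨L, hL, h⟩ := EllTorsion.galoisFactorsThroughFiniteLevel_intModel W hΔ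
    (show (3 : ℕ) ≠ 0 by norm_num)
  refine ⟨L, hL, fun σ hσ => ?_⟩
  exact (congrArg (LinearMap.toMatrixAlgEquiv
    (Module.Basis.ofEquivFun (equiv3 hΔ))) (h σ hσ)).trans (map_one _)

theorem smul_eq_neg_of_rep3 {σ : Γℚ} (h : rep3 hΔ σ = -1)
    (P : Tors (W.map (Int.castRingHom ℚ)) 3) : σ • P = -P := by
  apply (equiv3 hΔ).injective
  rw [equiv3_smul, h, Matrix.neg_mulVec, Matrix.one_mulVec, map_neg]

/-- Irreducibility moves the line of a nilpotent. -/
theorem exists_moves_line (h3 : W.ModRepIsIrreducible 3) {X : M₃} (hX : X ≠ 0) (hX2 : X * X = 0) :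
    ∃ γ : Γℚ, X * rep3 hΔ γ * X ≠ 0 := by
  by_contra! hall
  let N : Submodule (ZMod 3) (Tors (W.map (Int.castRingHom ℚ)) 3) :=
    (LinearMap.range X.mulVecLin).comap (equiv3 hΔ).toLinearMap
  have hN : IsGaloisStable ℚ N := by
    intro σ x hx
    obtain ⟨w, hw⟩ := hx
    obtain ⟨c, hc⟩ := exists_scalar_of_stable X hX hX2 _ (hall σ)
    refine ⟨c • w, ?_⟩
    show X *ᵥ (c • w) = equiv3 hΔ (σ • x)
    rw [equiv3_smul, show equiv3 hΔ x = X *ᵥ w from hw.symm, Matrix.mulVec_mulVec, hc,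
      Matrix.smul_mulVec, Matrix.mulVec_smul]
  rcases h3.2 N hN with h | h
  · refine hX (Matrix.ext_of_mulVec_single fun i => ?_)
    have hm : (equiv3 hΔ).symm (X *ᵥ Pi.single i 1) ∈ N :=
      ⟨Pi.single i 1, ((equiv3 hΔ).apply_symm_apply _).symm⟩
    rw [h, Submodule.mem_bot, LinearEquiv.map_eq_zero_iff] at hm
    rw [hm, Matrix.zero_mulVec]
  · refine hX (Matrix.ext_of_mulVec_single fun i => ?_)
    have hm : (equiv3 hΔ).symm (Pi.single i 1) ∈ N := h ▸ Submodule.mem_top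
    obtain ⟨w, hw⟩ := hm
    have hw' : X *ᵥ w = Pi.single i 1 := hw.trans ((equiv3 hΔ).apply_symm_apply _)
    rw [Matrix.zero_mulVec, ← hw', Matrix.mulVec_mulVec, hX2, Matrix.zero_mulVec]

/-- At a multiplicative prime `2` with `3 ∤ v₂(Δ)` inertia gives a transvection fixing `μ₅`. -/
theorem exists_transvection [Fact (Nat.Prime 5)] (hW : W.IsSemistableModel)
    (h2 : ¬ LT2.TwoOK W) :
    ∃ t : Γℚ, (rep3 hΔ t - 1) * (rep3 hΔ t - 1) = 0 ∧ rep3 hΔ t ≠ 1 ∧
      Carayol.cycloMod 5 1 t = 1 := by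
  simp only [LT2.TwoOK, not_or, not_not] at h2
  obtain ⟨h2Δ, hv⟩ := h2
  have hd : ((2 : ℕ) : ℤ) ∣ W.Δ := by exact_mod_cast h2Δ
  have hc₄ := hW 2 Nat.prime_two hd
  have hv' : ¬ 3 ∣ W.Δ.natAbs.factorization 2 := by
    rwa [padicValInt, ← Nat.factorization_def _ Nat.prime_two] at hv
  obtain ⟨B, hB⟩ := Galois.exists_liesOverPrime Nat.prime_two
  obtain ⟨t, ht, P, hP, hne⟩ := Carayol.exists_inertia_smul_ne Nat.prime_two hB hΔ hd hc₄
    Nat.prime_three (by norm_num) hv'
  refine ⟨t, ?_, fun h => hne ?_, ?_⟩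
  · refine Matrix.ext_of_mulVec_single fun i => ?_
    obtain ⟨x, hx⟩ := (equiv3 hΔ).surjective (Pi.single i 1)
    rw [← hx, ← Matrix.mulVec_mulVec, Matrix.sub_mulVec, Matrix.one_mulVec, Matrix.sub_mulVec,
      Matrix.one_mulVec, Matrix.zero_mulVec, ← equiv3_smul, ← map_sub, ← equiv3_smul, ← map_sub]
    refine (congrArg (equiv3 hΔ) (Subtype.ext ?_)).trans (_root_.map_zero _)
    show t • (t • (x.1 : EllReduction.GeomPoint W) - (x.1 : EllReduction.GeomPoint W))
        - (t • (x.1 : EllReduction.GeomPoint W) - (x.1 : EllReduction.GeomPoint W)) = 0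
    exact sub_eq_zero.mpr (EllReduction.smul_smul_sub_eq Nat.prime_two hB (Or.inr hc₄) hΔ
      (by norm_num) ht ht
      ((natCast_zsmul _ 3).symm.trans ((Submodule.mem_torsionBy_iff _ _).mp x.2)))
  · let x : Tors (W.map (Int.castRingHom ℚ)) 3 :=
      ⟨P, (Submodule.mem_torsionBy_iff _ _).mpr ((natCast_zsmul _ 3).trans hP)⟩
    have e : t • x = x := (equiv3 hΔ).injective (by rw [equiv3_smul, h, Matrix.one_mulVec])
    exact congrArg Subtype.val e
  · show PadicInt.toZModPow 1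
      (((cyclotomicCharacter Qbar 5 t.toRingEquiv : (ℤ_[5])ˣ)) : ℤ_[5]) = _
    rw [show cyclotomicCharacter Qbar 5 t.toRingEquiv = 1 from
      Galois.cyclotomicCharacter_inertia 5 Nat.prime_two (by norm_num) hB ht, Units.val_one, map_one]

/-- An element `-1` on `E[3]` fixing `μ₅`. -/
theorem exists_neg_one [Fact (Nat.Prime 5)] (hW : W.IsSemistableModel)
    (h3 : W.ModRepIsIrreducible 3) (h2 : ¬ LT2.TwoOK W) :
    ∃ g : Γℚ, rep3 hΔ g = -1 ∧ Carayol.cycloMod 5 1 g = 1 := by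
  obtain ⟨t, hsq, ht1, hc⟩ := exists_transvection hΔ hW h2
  obtain ⟨γ, hγ⟩ := exists_moves_line hΔ h3 (X := rep3 hΔ t - 1) (sub_ne_zero.mpr ht1) hsq
  set M := rep3 hΔ t with hM
  set G := rep3 hΔ γ with hG
  set H := rep3 hΔ γ⁻¹ with hH
  set t' := γ * t * γ⁻¹ with ht'
  have hHG : H * G = 1 := by rw [hH, hG, ← map_mul, inv_mul_cancel, map_one]
  have hGH : G * H = 1 := by rw [hH, hG, ← map_mul, mul_inv_cancel, map_one]
  have hN : rep3 hΔ t' - 1 = G * (M - 1) * H := by
    rw [ht', map_mul, map_mul, ← hM, ← hG, ← hH, mul_sub, mul_one, sub_mul, hGH]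
  have hN2 : (rep3 hΔ t' - 1) * (rep3 hΔ t' - 1) = 0 := by
    rw [hN, show G * (M - 1) * H * (G * (M - 1) * H) = G * (M - 1) * (H * G) * (M - 1) * H by
      simp only [mul_assoc], hHG, mul_one, mul_assoc G, hsq, mul_zero, zero_mul]
  have hMN : (M - 1) * (rep3 hΔ t' - 1) ≠ 0 := fun h => hγ <| by
    rw [hN, ← mul_assoc, ← mul_assoc] at h
    have := congrArg (· * G) h
    simpa only [mul_assoc, hHG, mul_one, zero_mul] using this
  have hc' : Carayol.cycloMod 5 1 t' = 1 := by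
    rw [ht', map_mul, map_mul, hc, mul_one, ← map_mul, mul_inv_cancel, map_one]
  rcases neg_one_of_transvections M hsq ht1 _ hN2 hMN with h | h
  · exact ⟨(t * t' * t) * (t * t' * t), by simp only [map_mul, ← hM]; exact h,
      by simp only [map_mul, hc, hc', mul_one]⟩
  · exact ⟨(t * t' * t' * t) * (t * t' * t' * t), by simp only [map_mul, ← hM]; exact h,
      by simp only [map_mul, hc, hc', mul_one]⟩

end FLTA.Full
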