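import Fermat.Agent.LT2.HesseForms
import Fermat.Agent.Elliptic.Switch.ModThree
import Fermat.Agent.Galois.Cyclotomic
import Fermat.Prelude.Def_EllipticCurve_FrobeniusTrace

/-!
# A root of the quartic of the Hesse pencil modulo `q`

If a Frobenius at `q` maps a point of order three to its opposite it fixes the corresponding root
of the quartic, whose residue is then in `𝔽_q`.
-/

set_option autoImplicit false

open WeierstrassCurve WeierstrassCurve.Affine WeierstrassCurve.Affine.Point Polynomial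
open FLTA.EllReducible

open scoped WeierstrassCurve.Affine

noncomputable section

namespace FLTA.Full

local notation "Qbar" => AlgebraicClosure ℚ

theorem exists_root_mod (W : WeierstrassCurve ℤ) (hΔ : W.Δ ≠ 0) {q : ℕ} (hq : q.Prime)
    {A : ValuationSubring Qbar} (hA : A.LiesOverPrime q) {τ : Qbar ≃ₐ[ℚ] Qbar}
    (hτ : A.IsFrobeniusAt τ q) {V : Tors (W.map (Int.castRingHom ℚ)) 3} (hV0 : V ≠ 0)
    (hV : τ • V = -V) :
    ∃ x₀ : ℤ, (q : ℤ) ∣ LT2.Hesse.hD W.c₄ W.c₆ x₀ 1 := by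
  obtain ⟨P, hP⟩ := V
  rcases P with _ | ⟨x, y, hns⟩
  · exact (hV0 (Subtype.ext rfl)).elim
  have k := congrArg Subtype.val hV
  change τ • (Affine.Point.some x y hns : ((W.map (Int.castRingHom ℚ))⁄Qbar).Point) = -Affine.Point.some x y hns at k
  rw [algEquiv_smul_def, Affine.Point.map_some, Affine.Point.neg_some] at k
  have hx : τ x = x := (Affine.Point.some.inj k).1
  have hE0 : (W.map (Int.castRingHom ℚ)).Δ ≠ 0 := by rw [WeierstrassCurve.map_Δ]; simpa using hΔ
  have hell : ((W.map (Int.castRingHom ℚ))⁄Qbar).IsElliptic := ⟨by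
    show IsUnit ((W.map (Int.castRingHom ℚ)).map (algebraMap ℚ Qbar)).Δ
    rw [WeierstrassCurve.map_Δ, isUnit_iff_ne_zero]
    exact (map_ne_zero (algebraMap ℚ Qbar)).2 hE0⟩
  have h3 : 3 • (Affine.Point.some x y hns : ((W.map (Int.castRingHom ℚ))⁄Qbar).Point) = 0 := by
    rw [Submodule.mem_torsionBy_iff] at hP
    rwa [← natCast_zsmul]
  have hΨ := (EllTorsion.nsmul_eq_zero_iff_of_odd hns (by decide : Odd 3)).1 h3
  rw [preΨ'_three] at hΨ
  set z : Qbar := 12 * x + (W.b₂ : Qbar) with hz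
  have hroot : LT2.Hesse.hD (W.c₄ : Qbar) (W.c₆ : Qbar) z 1 = 0 := by
    have h := Elliptic.Switch.quartic_eq_Ψ₃ ((W.map (Int.castRingHom ℚ))⁄Qbar) x
    rw [hΨ, mul_zero] at h
    simp only [WeierstrassCurve.baseChange, WeierstrassCurve.map_c₄, WeierstrassCurve.map_c₆,
      WeierstrassCurve.map_b₂, eq_intCast, map_intCast] at h
    rw [← h, hz]
    simp only [LT2.Hesse.hD, Elliptic.Switch.quartic]
    ring
  have hint : IsIntegral ℤ z := by
    refine ⟨Polynomial.X ^ 4 - C (6 * W.c₄) * Polynomial.X ^ 2 - C (8 * W.c₆) * Polynomial.X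
      - C (3 * W.c₄ ^ 2), by monicity!, ?_⟩
    simp only [LT2.Hesse.hD] at hroot
    simp only [eval₂_sub, eval₂_mul, eval₂_X_pow, eval₂_C, eval₂_X]
    simp only [map_mul, map_pow, map_ofNat, eq_intCast]
    linear_combination hroot
  have hτz : τ z = z := by rw [hz, map_add, map_mul, map_ofNat, map_intCast, hx]
  have : Fact q.Prime := ⟨hq⟩
  have : CharP (IsLocalRing.ResidueField A) q := FLTA.Galois.charP_residueField hq hA
  have hmem : z ∈ A := FLTA.Galois.mem_of_isIntegral hint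
  obtain ⟨hd, hF⟩ := hτ
  set r := IsLocalRing.residue A ⟨z, hmem⟩ with hr
  have hmem' : τ z ∈ A := by rw [hτz]; exact hmem
  have hfr : IsLocalRing.residue A ⟨τ z, hmem'⟩ = r ^ q := hF r
  rw [show (⟨τ z, hmem'⟩ : A) = ⟨z, hmem⟩ from Subtype.ext hτz, ← hr] at hfr
  obtain ⟨u, hu⟩ : ∃ u : ℤ, (u : IsLocalRing.ResidueField A) = r := by
    have hbot : r ∈ (⊥ : Subfield (IsLocalRing.ResidueField A)) :=
      (Subfield.mem_bot_iff_pow_eq_self (IsLocalRing.ResidueField A) q).mpr hfr.symm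
    have hle : (⊥ : Subfield (IsLocalRing.ResidueField A)) ≤
        (ZMod.castHom (dvd_refl q) (IsLocalRing.ResidueField A)).fieldRange := bot_le
    obtain ⟨w, hw⟩ := hle hbot
    obtain ⟨u, rfl⟩ := ZMod.intCast_surjective w
    exact ⟨u, by rw [← hw, map_intCast]⟩
  refine ⟨u, (CharP.intCast_eq_zero_iff (IsLocalRing.ResidueField A) q _).mp ?_⟩
  have hA0 : LT2.Hesse.hD (W.c₄ : A) (W.c₆ : A) (⟨z, hmem⟩ : A) 1 = 0 := by
    apply (show Function.Injective A.subtype from Subtype.coe_injective)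
    rw [LT2.Hesse.map_hD, _root_.map_zero, map_intCast, map_intCast, map_one]
    exact hroot
  have h := congrArg (IsLocalRing.residue A) hA0
  rw [LT2.Hesse.map_hD, _root_.map_zero, map_intCast, map_intCast, map_one, ← hr, ← hu] at h
  rw [show ((LT2.Hesse.hD W.c₄ W.c₆ u 1 : ℤ) : IsLocalRing.ResidueField A) =
    Int.castRingHom _ (LT2.Hesse.hD W.c₄ W.c₆ u 1) from rfl, LT2.Hesse.map_hD, map_one]
  exact h

end FLTA.Full
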