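import Fermat.Agent.LT2.Defs
import Fermat.Agent.LT2.HesseForms
import Fermat.Agent.EllReducible.Basic
import Fermat.Agent.Full.AuxPrimeRep
import Fermat.Agent.Full.AuxPrimeRoot
import Fermat.Agent.LT2.PrimesFrobenius

/-!
# An auxiliary prime at which Frobenius is minus the identity on the 3-torsion
-/

set_option autoImplicit false

open WeierstrassCurve WeierstrassCurve.Affine.Point
open FLTA.EllReducible

open scoped WeierstrassCurve.Affine

namespace FLTA.Full

local notation "Qbar" => AlgebraicClosure ℚ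

/-- For a curve whose mod 3 representation is irreducible and ramified at `2` there is, outside
any finite set, a prime `q ≡ 1` mod `5` with Frobenius `-1` on the 3-torsion; the quartic of the
Hesse pencil then has a root mod `q`. -/
theorem exists_aux_prime (W : WeierstrassCurve ℤ) (hΔ : W.Δ ≠ 0) (hW : W.IsSemistableModel)
    (h3 : W.ModRepIsIrreducible 3) (h2 : ¬ LT2.TwoOK W) (S : Finset ℕ) :
    ∃ q : ℕ, q.Prime ∧ q ∉ S ∧ (5 : ℤ) ∣ (q : ℤ) - 1 ∧
      (∃ x₀ : ℤ, (q : ℤ) ∣ LT2.Hesse.hD W.c₄ W.c₆ x₀ 1) ∧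
      ∃ A : ValuationSubring Qbar, A.LiesOverPrime q ∧
        ∃ τ : Qbar ≃ₐ[ℚ] Qbar, A.IsFrobeniusAt τ q ∧
          ∀ P : Tors (W.map (Int.castRingHom ℚ)) 3, τ • P = -P := by
  have : Fact (Nat.Prime 5) := ⟨by norm_num⟩
  obtain ⟨g, hg, hgc⟩ := exists_neg_one hΔ hW h3 h2
  set φ := (rep3 hΔ).prod (Carayol.cycloMod 5 1) with hφ
  have hφg : φ g = (-1, 1) := Prod.ext hg hgc
  obtain ⟨q, hq, hqS, A, hA, τ, hτ, j, k, hj, hk⟩ := LT2.exists_frobenius_map_pow φ
    (Density.galoisFactorsThroughFiniteLevel_prod (rep3_finiteLevel hΔ)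
      (Carayol.cycloMod_finiteLevel 5 1)) (insert 5 S) g
  rw [Finset.mem_insert, not_or] at hqS
  have hτφ : φ τ = (-1, 1) := by
    rw [hφg] at hj hk
    rw [hj] at hk ⊢
    rcases Nat.even_or_odd j with h | h
    · exfalso
      simp only [Prod.pow_mk, h.neg_one_pow, one_pow] at hk
      exact absurd (show (1 : Matrix (Fin 2) (Fin 2) (ZMod 3)) = -1 from congrArg Prod.fst hk)
        (by decide)
    · simp only [Prod.pow_mk, h.neg_one_pow, one_pow]
  have hneg : ∀ P : Tors (W.map (Int.castRingHom ℚ)) 3, τ • P = -P :=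
    smul_eq_neg_of_rep3 hΔ (congrArg Prod.fst hτφ)
  refine ⟨q, hq, hqS.2, ?_, ?_, A, hA, τ, hτ, hneg⟩
  · have h : Carayol.cycloMod 5 1 τ = (q : ZMod (5 ^ 1)) := by
      show PadicInt.toZModPow 1
        (((cyclotomicCharacter Qbar 5 τ.toRingEquiv : (ℤ_[5])ˣ)) : ℤ_[5]) = _
      rw [show ((cyclotomicCharacter Qbar 5 τ.toRingEquiv : ℤ_[5]ˣ) : ℤ_[5]) = q from
        Galois.cyclotomicCharacter_frobenius 5 hq hqS.1 hA hτ, map_natCast]
    rw [show Carayol.cycloMod 5 1 τ = 1 from congrArg Prod.snd hτφ] at h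
    have h' : (((q : ℤ) - 1 : ℤ) : ZMod (5 ^ 1)) = 0 := by
      rw [Int.cast_sub, Int.cast_natCast, Int.cast_one, ← h, sub_self]
    simpa using (ZMod.intCast_zmod_eq_zero_iff_dvd _ _).mp h'
  · obtain ⟨V, hV⟩ := @exists_ne _ h3.1 (0 : Tors (W.map (Int.castRingHom ℚ)) 3)
    exact exists_root_mod W hΔ hq hA hτ hV (hneg V)

end FLTA.Full
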