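import Fermat.Agent.EllReducible.Global
import Fermat.Agent.EllReducible.Line
import Fermat.Agent.EllTate.SiteSign
import Fermat.Agent.EllTorsion.GaloisDet
import Fermat.Agent.RepTheory.Basic

/-!
# Irreducibility mod 5 from an auxiliary multiplicative prime
-/

set_option autoImplicit false

open WeierstrassCurve WeierstrassCurve.Affine.Point
open FLTA.EllReducible FLTA.EllReduction FLTA.EllTate

open scoped WeierstrassCurve.Affine

namespace FLTA.Full

local notation "Qbar" => AlgebraicClosure ℚ

/-- A multiplicative prime `q ≡ 1` mod `5` at which Frobenius is `-1` on the 3-torsion is non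
split, so the mod 5 representation of a semistable curve is irreducible. -/
theorem modRepIsIrreducible_five_of_prime (W : WeierstrassCurve ℤ) (hΔ : W.Δ ≠ 0)
    (hW : W.IsSemistableModel) (q : ℕ) (hq : q.Prime) (hq5 : 5 ≤ q) (hq1 : (5 : ℤ) ∣ (q : ℤ) - 1)
    (hqΔ : (q : ℤ) ∣ W.Δ) (A : ValuationSubring Qbar) (hA : A.LiesOverPrime q)
    (τ : Qbar ≃ₐ[ℚ] Qbar) (hτ : A.IsFrobeniusAt τ q)
    (hneg : ∀ P : Tors (W.map (Int.castRingHom ℚ)) 3, τ • P = -P) :
    W.ModRepIsIrreducible 5 := by
  have : Fact (Nat.Prime 5) := ⟨by norm_num⟩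
  have : Fact (Nat.Prime 3) := ⟨by norm_num⟩
  have hc₄ : ¬ (q : ℤ) ∣ W.c₄ := hW q hq hqΔ
  have hq5' : q ≠ 5 := by rintro rfl; norm_num at hq1
  set E := W.map (Int.castRingHom ℚ) with hEdef
  have hE : E.Δ ≠ 0 := by rw [hEdef, WeierstrassCurve.map_Δ]; simpa using hΔ
  obtain ⟨s, hs2, hs, -⟩ := exists_sign hq hA hΔ hqΔ hc₄ hτ.mem_decompositionSubgroup
  -- the sign is `-1`, seen on the 3-torsion
  have hs1 : s = -1 := by
    rcases sq_eq_one_iff.mp hs2 with rfl | rfl
    · exfalso
      obtain ⟨P, hP, hP0⟩ := exists_torsion_not_mem_E0 (p := 3) hΔ hq (by omega) hA hqΔ hc₄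
      refine hP0 ?_
      let P' : Tors E 3 := ⟨P, (Submodule.mem_torsionBy_iff _ _).mpr
        ((natCast_zsmul P 3).trans hP)⟩
      have h1 : τ • P = -P := congrArg Subtype.val (hneg P')
      have key : ∀ R : GeomPoint W, R = -P → R - (1 : ℤ) • P ∈ E0Z W A → P ∈ E0Z W A := by
        rintro R rfl h
        have h2 := add_mem h (show (3 : ℕ) • P ∈ E0Z W A by rw [hP]; exact zero_mem _)
        rwa [show -P - (1 : ℤ) • P + (3 : ℕ) • P = P by abel] at h2
      exact key _ h1 (hs P)
    · rfl
  have hV := finrank_tors E hE (p := 5)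
  have : Module.Finite (ZMod 5) (Tors E 5) := Module.finite_of_finrank_eq_succ hV
  refine ⟨Module.nontrivial_of_finrank_eq_succ hV, fun N hN => ?_⟩
  by_contra hcon
  push Not at hcon
  have hline : IsStableLine E 5 N := ⟨hN, hcon.1, hcon.2⟩
  set f : Module.End (ZMod 5) (Tors E 5) := galoisRepModuleEnd (K := Qbar) ℚ E 5 τ with hf
  have hfa : ∀ x : Tors E 5, f x = τ • x := fun _ => rfl
  have hdet : LinearMap.det f = 1 := by
    have : NeZero 5 := ⟨by norm_num⟩
    have : E.IsElliptic := ⟨isUnit_iff_ne_zero.mpr hE⟩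
    have hcast : ((q : ℕ) : ZMod 5) = 1 := by
      rw [← sub_eq_zero]
      have := (ZMod.intCast_zmod_eq_zero_iff_dvd ((q : ℤ) - 1) 5).mpr (by exact_mod_cast hq1)
      push_cast at this
      exact this
    rw [hf, EllTorsion.det_galoisRepModuleEnd_eq_cyclotomic E 5
      (IsAlgClosed.card_rootsOfUnity_eq Qbar 5) τ]
    exact (FLTA.Galois.modularCyclotomicCharacter_frobenius hq hA hτ
      (fun h => hq5' ((Nat.prime_dvd_prime_iff_eq hq (by norm_num)).mp h)) _).trans hcast
  set t := LinearMap.trace (ZMod 5) (Tors E 5) f with ht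
  have hCH : ∀ x : Tors E 5, f (f x) - t • f x + x = 0 := fun x => by
    have h := LinearMap.congr_fun (f.aeval_self_charpoly) x
    rw [RepTheory.charpoly_of_finrank_two hV, hdet] at h
    simpa [← ht, pow_two] using h
  -- a stable line with trivial action on it or on the quotient: `f` is unipotent
  have hunip : ∀ x : Tors E 5, f (f x - x) = f x - x := by
    have ht2 : t = 2 := by
      rw [← sub_eq_zero]
      by_contra hne
      rcases subTrivial_or_quotTrivial W hΔ hW (by norm_num : Nat.Prime 5) (by norm_num) hline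
        with h | h
      · obtain ⟨x, hx, hx0⟩ := (Submodule.ne_bot_iff N).mp hcon.1
        have hfx : f x = x := h τ x hx
        have h1 := hCH x
        rw [hfx, hfx] at h1
        have h2 : (t - 2) • x = 0 := by
          have : (t - 2) • x = -(x - t • x + x) := by rw [sub_smul, two_smul]; abel
          rw [this, h1, _root_.neg_zero]
        exact hx0 ((smul_eq_zero.mp h2).resolve_left hne)
      · obtain ⟨x, hx⟩ : ∃ x, x ∉ N := by
          by_contra hall
          push Not at hall
          exact hcon.2 (Submodule.eq_top_iff'.mpr hall)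
        have h1 : f x - x ∈ N := h τ x
        have h2 : f (f x - x) ∈ N := hN τ _ h1
        have h3 : (t - 2) • x ∈ N := by
          have : (t - 2) • x = f (f x - x) + (f x - x) - t • (f x - x) -
              (f (f x) - t • f x + x) := by
            rw [map_sub, sub_smul, two_smul, smul_sub]; abel
          rw [this, hCH x, sub_zero]
          exact N.sub_mem (N.add_mem h2 h1) (N.smul_mem _ h1)
        exact hx ((Submodule.smul_mem_iff N hne).mp h3)
    intro x
    have h := hCH x
    rw [ht2, two_smul] at h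
    rw [map_sub, ← sub_eq_zero, ← h]
    abel
  -- so all of the 5-torsion lies in the component of zero
  obtain ⟨P, hP, hP0⟩ := exists_torsion_not_mem_E0 (p := 5) hΔ hq hq5' hA hqΔ hc₄
  let P' : Tors E 5 := ⟨P, (Submodule.mem_torsionBy_iff _ _).mpr
    ((natCast_zsmul P 5).trans hP)⟩
  set Q : GeomPoint W := τ • P - P with hQ
  have hQf : τ • Q = Q := congrArg Subtype.val (hunip P')
  have hQ5 : 5 • Q = 0 := nsmul_smul_sub_eq_zero τ hP
  subst hs1
  have half : ∀ R : GeomPoint W, 5 • R = 0 → R + R ∈ E0Z W A → R ∈ E0Z W A := fun R h5 h => by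
    have : R = (3 : ℕ) • (R + R) := by
      rw [show (3 : ℕ) • (R + R) = 5 • R + R by abel, h5, zero_add]
    rw [this]
    exact nsmul_mem h 3
  have hQ0 : Q ∈ E0Z W A := half Q hQ5 (by
    have key : ∀ R : GeomPoint W, R = Q → R - (-1 : ℤ) • Q ∈ E0Z W A → Q + Q ∈ E0Z W A := by
      rintro R rfl h
      rwa [neg_one_zsmul, sub_neg_eq_add] at h
    exact key _ hQf (hs Q))
  refine hP0 (half P hP ?_)
  have key : ∀ R : GeomPoint W, R - P ∈ E0Z W A → R - (-1 : ℤ) • P ∈ E0Z W A →
      P + P ∈ E0Z W A := fun R h1 h2 => by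
    have h := sub_mem h2 h1
    rwa [show R - (-1 : ℤ) • P - (R - P) = P + P by abel] at h
  exact key _ hQ0 (hs P)

end FLTA.Full
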