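/-
A prime exactly dividing an arbitrary level leaves it when the representation is finite there,
with no exception at `p = 3`.
-/
import Fermat.Agent.RT.LowerP
import Fermat.Agent.LevelLowering.MainThree
import Fermat.Prelude.Def_WeierstrassCurve_PeuRamifiee

set_option autoImplicit false
set_option synthInstance.maxHeartbeats 400000
set_option maxHeartbeats 800000

noncomputable section

open AlgebraicCurve ModularCurve IsLocalRing WeierstrassCurve

namespace FLTA.Full

open FLTA.LevelLowering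
open FLTA.EllReducible (Tors)

/-- At an ordinary or peu ramifié place `E[p]` cannot be `p`-new. -/
theorem ordinary_false_of_curveData {W : WeierstrassCurve ℤ} (hΔ : W.Δ ≠ 0) {p : ℕ}
    [hp : Fact p.Prime] (hp2 : p ≠ 2) (hloc : IsOrdinaryOrPeuMult W p) {N M : ℕ} [NeZero N]
    [NeZero M] (hNM : N = M * p) (hpM : ¬ p ∣ M)
    {S : Finset ℕ} (hpS : p ∈ S) (hlev : ∀ ℓ : ℕ, ℓ.Prime → ℓ ∣ N → ℓ ∈ S)
    (D : CurveGlobalData W p N M S) : False := by
  by_cases h3 : p = 3
  swap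
  · exact RT.LowerPOrd.false_of_curveData hΔ hp2 hloc hNM hpM (fun h => absurd h h3) hpS hlev D
  subst hNM
  haveI : NeZero p := ⟨hp.out.ne_zero⟩
  have hE : (W.map (Int.castRingHom ℚ)).Δ ≠ 0 := by
    rw [WeierstrassCurve.map_Δ]; simpa using hΔ
  obtain ⟨A, hA⟩ := FLTA.Galois.exists_liesOverPrime hp.out
  obtain ⟨L₀, V⟩ := exists_torsShape_curve W hΔ p hp2 hloc A hA
  haveI := FLTA.Galois.charP_residueField hp.out hA
  haveI := FLTA.Congruence.perfectRing_residueField hp.out hA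
  exact false_of_eigen_embedding_three hE hp2 hpM hA V S hpS hlev (fun ℓ => W.apOfModel ℓ) D.iota
    D.iota_injective D.iota_smul D.hecke_iota D.t D.t_eval D.t_old D.exists_not_eisenstein h3

/-- **`p` leaves the level at a place where the representation is finite.** -/
theorem residuallyModular_div_self
    (W : WeierstrassCurve ℤ) (hΔ : W.Δ ≠ 0)
    {p : ℕ} (hp : p.Prime) (hp2 : p ≠ 2)
    (hsemi : (p : ℤ) ∣ W.Δ → ¬ (p : ℤ) ∣ W.c₄)
    (hirr : W.ModRepIsIrreducible p)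
    (hfin : (W.map (Int.castRingHom ℚ)).IsPeuRamifieeAt p p)
    {M : ℕ} (hM : 0 < M) (hpM : p ∣ M) (hp2M : ¬ p ^ 2 ∣ M)
    (hmod : W.IsResiduallyModularOfLevel p M) :
    W.IsResiduallyModularOfLevel p (M / p) := by
  haveI : Fact p.Prime := ⟨hp⟩
  obtain ⟨L, rfl⟩ := hpM
  rw [Nat.mul_div_cancel_left L hp.pos]
  have hL : L ≠ 0 := (Nat.pos_of_mul_pos_left hM).ne'
  have hpL : ¬ p ∣ L := fun h => hp2M (by rw [sq]; exact mul_dvd_mul_left p h)
  haveI : NeZero L := ⟨hL⟩
  haveI : NeZero (p * L) := ⟨hM.ne'⟩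
  rcases LevelLowering.exists_curveData_or_residuallyModular W hΔ p hp2 hirr (p * L) L rfl hmod
    with h | ⟨⟨D⟩⟩
  · exact h
  have hlev : ∀ ℓ : ℕ, ℓ.Prime → ℓ ∣ p * L →
      ℓ ∈ ({p} ∪ (p * L).primeFactors ∪ W.Δ.natAbs.primeFactors : Finset ℕ) := fun ℓ hℓ h => by
    simp [Nat.mem_primeFactors, hℓ, h, hp.ne_zero, hL]
  by_cases hss : W.IsGoodPrimeFor p ∧ (p : ℤ) ∣ W.apOfModel p
  · exact (RT.LowerPSS.false_of_curveData hΔ hp2 hss.1 hss.2 (mul_comm p L) hpL
      (by simp) hlev D).elim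
  have hloc : LevelLowering.IsOrdinaryOrPeuMult W p := by
    by_cases hgood : (p : ℤ) ∣ W.Δ
    · refine Or.inr ⟨hgood, hsemi hgood, ?_⟩
      have hv : (p : ℤ) ∣ padicValRat p ((W.Δ : ℤ) : ℚ) := by
        simpa [WeierstrassCurve.IsPeuRamifieeAt, WeierstrassCurve.map_Δ] using hfin
      rw [padicValRat.of_int] at hv
      rw [Nat.factorization_def _ hp]
      exact Int.natCast_dvd_natCast.mp hv
    · exact Or.inl ⟨hgood, fun h => hss ⟨hgood, h⟩⟩
  exact (ordinary_false_of_curveData hΔ hp2 hloc (mul_comm p L) hpL (by simp) hlev D).elim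

end FLTA.Full

end
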