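import Fermat.Agent.LT2.Defs
import Fermat.Agent.LT2.HesseDisc
import Fermat.Agent.LT2.HesseCong
import Fermat.Agent.LT2.CompanionOdd

/-!
# A member of the Hesse pencil with a prescribed new multiplicative prime
-/

set_option autoImplicit false

open WeierstrassCurve WeierstrassCurve.Affine.Point
open FLTA.EllReducible

open scoped WeierstrassCurve.Affine

namespace FLTA.Full

local notation "Qbar" => AlgebraicClosure ℚ

/-- The integral model with prescribed invariants congruent to those of `W`. -/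
theorem exists_model_congr (W : WeierstrassCurve ℤ) (k₄ k₆ : ℤ) :
    ∃ W' : WeierstrassCurve ℤ, W'.c₄ = W.c₄ + 2 ^ 12 * 3 ^ 7 * W.Δ * k₄ ∧
      W'.c₆ = W.c₆ + 2 ^ 12 * 3 ^ 7 * W.Δ * k₆ := by
  refine ⟨⟨W.a₁, W.a₂, W.a₃, W.a₄ - 864 * 216 * W.Δ * k₄,
    W.a₆ - 72 * 216 * W.Δ * k₄ * W.b₂ - 48 * 216 * W.Δ * k₆⟩, ?_, ?_⟩
  · generalize W.Δ = d
    simp only [WeierstrassCurve.c₄, WeierstrassCurve.b₂, WeierstrassCurve.b₄]
    ring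
  · generalize W.Δ = d
    simp only [WeierstrassCurve.c₆, WeierstrassCurve.b₂, WeierstrassCurve.b₄, WeierstrassCurve.b₆]
    ring

/-- A semistable curve with the same 3-torsion, bad at `2` and at the prime `q`. -/
theorem exists_hesse_member (W : WeierstrassCurve ℤ) (hΔ : W.Δ ≠ 0) (hW : W.IsSemistableModel)
    (h2 : (2 : ℤ) ∣ W.Δ) (q : ℕ) (hq : q.Prime) (hq5 : 5 ≤ q) (hqΔ : ¬ (q : ℤ) ∣ W.Δ)
    (x₀ : ℤ) (hx₀ : (q : ℤ) ∣ LT2.Hesse.hD W.c₄ W.c₆ x₀ 1) :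
    ∃ W' : WeierstrassCurve ℤ, W'.Δ ≠ 0 ∧ W'.IsSemistableModel ∧ (2 : ℤ) ∣ W'.Δ ∧
      (q : ℤ) ∣ W'.Δ ∧ LT2.TraceCong 3 W W' ∧
      ∃ φ : Tors (W.map (Int.castRingHom ℚ)) 3 ≃+ Tors (W'.map (Int.castRingHom ℚ)) 3,
        ∀ (σ : Qbar ≃ₐ[ℚ] Qbar) (P : Tors (W.map (Int.castRingHom ℚ)) 3),
          φ (σ • P) = σ • φ P := by
  set c₄ := W.c₄ with hc4
  set c₆ := W.c₆ with hc6
  set N : ℤ := 2 ^ 12 * 3 ^ 7 * W.Δ with hN
  have hq' : Prime (q : ℤ) := Nat.prime_iff_prime_int.mp hq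
  have hqN : ¬ (q : ℤ) ∣ N := fun h => by
    have hle : ∀ p : ℕ, 0 < p → (q : ℤ) ∣ (p : ℤ) → q ≤ p := fun p hp hd =>
      Nat.le_of_dvd hp (Int.natCast_dvd_natCast.mp hd)
    rcases hq'.dvd_mul.mp h with h | h
    · rcases hq'.dvd_mul.mp h with h | h
      · have := hle 2 (by norm_num) (by exact_mod_cast hq'.dvd_of_dvd_pow h); omega
      · have := hle 3 (by norm_num) (by exact_mod_cast hq'.dvd_of_dvd_pow h); omega
    · exact hqΔ h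
  obtain ⟨a, b, hab⟩ := ((Prime.coprime_iff_not_dvd hq').mpr hqN)
  set u : ℤ := 1 + N * ((x₀ * N - 1) * b) with hu
  have huN : N ∣ u - 1 := ⟨(x₀ * N - 1) * b, by rw [hu]; ring⟩
  have huq : (q : ℤ) ∣ u - x₀ * N :=
    ⟨-((x₀ * N - 1) * a), by rw [hu]; linear_combination (x₀ * N - 1) * hab⟩
  set D := LT2.Hesse.hD c₄ c₆ u N with hD'
  have hD1 : N ∣ D - 1 := by
    simpa [hD', LT2.Hesse.hD] using LT2.hD_congr c₄ c₆ N u N 1 0 huN (by simp)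
  have hDq : (q : ℤ) ∣ D := by
    have h := LT2.hD_congr c₄ c₆ q u N (x₀ * N) N huq (by simp)
    rw [show LT2.Hesse.hD c₄ c₆ (x₀ * N) N = N ^ 4 * LT2.Hesse.hD c₄ c₆ x₀ 1 by
      rw [← LT2.Hesse.hD_smul, mul_one, mul_comm x₀]] at h
    exact (dvd_sub_left (hx₀.mul_left _)).mp h
  have hND : ∀ p : ℕ, p.Prime → (p : ℤ) ∣ D → ¬ (p : ℤ) ∣ N := fun p hp hd hn =>
    (Nat.prime_iff_prime_int.mp hp).not_dvd_one
      (by simpa using dvd_sub hd (hn.trans hD1))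
  obtain ⟨k₄, hk₄⟩ : N ∣ LT2.Hesse.hC4 c₄ c₆ u N - c₄ := by
    simpa [LT2.Hesse.hC4_one_zero] using LT2.hC4_congr c₄ c₆ N u N 1 0 huN (by simp)
  obtain ⟨k₆, hk₆⟩ : N ∣ LT2.Hesse.hC6 c₄ c₆ u N - c₆ := by
    simpa [LT2.Hesse.hC6_one_zero] using LT2.hC6_congr c₄ c₆ N u N 1 0 huN (by simp)
  obtain ⟨W', h4, h6⟩ := exists_model_congr W k₄ k₆
  rw [← hN, ← hc4] at h4
  rw [← hN, ← hc6] at h6
  have h4' : W'.c₄ = LT2.Hesse.hC4 c₄ c₆ u N := by linear_combination h4 - hk₄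
  have h6' : W'.c₆ = LT2.Hesse.hC6 c₄ c₆ u N := by linear_combination h6 - hk₆
  have hΔeq : W'.Δ = W.Δ * D ^ 3 := by
    have h1 := W'.c_relation
    have h2' := W.c_relation
    rw [h4', h6', LT2.Hesse.hC4_pow_three_sub, ← hD'] at h1
    rw [← hc4, ← hc6] at h2'
    rw [← h2'] at h1
    exact mul_left_cancel₀ (show (1728 : ℤ) ≠ 0 by norm_num) (by linear_combination h1)
  have h2N : (2 : ℤ) ∣ N := by rw [hN]; exact ⟨2 ^ 11 * 3 ^ 7 * W.Δ, by ring⟩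
  have hD0 : D ≠ 0 := fun h => hND 2 Nat.prime_two (by simp [h]) (by exact_mod_cast h2N)
  have hΔ' : W'.Δ ≠ 0 := by rw [hΔeq]; exact mul_ne_zero hΔ (pow_ne_zero _ hD0)
  have hcast4 : ((W'.c₄ : ℤ) : ℚ) = LT2.Hesse.hC4 (c₄ : ℚ) (c₆ : ℚ) (u : ℚ) (N : ℚ) := by
    rw [h4']; exact LT2.Hesse.map_hC4 (Int.castRingHom ℚ) _ _ _ _
  have hcast6 : ((W'.c₆ : ℤ) : ℚ) = LT2.Hesse.hC6 (c₄ : ℚ) (c₆ : ℚ) (u : ℚ) (N : ℚ) := by
    rw [h6']; exact LT2.Hesse.map_hC6 (Int.castRingHom ℚ) _ _ _ _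
  refine ⟨W', hΔ', ?_, hΔeq ▸ h2.mul_right _, ?_, ?_, ?_⟩
  · intro p hp hd hp4
    have hp' : Prime (p : ℤ) := Nat.prime_iff_prime_int.mp hp
    by_cases hW' : (p : ℤ) ∣ W.Δ
    · have hn : (p : ℤ) ∣ N * k₄ := (hW'.mul_left _).mul_right _
      exact hW p hp hW' ((dvd_add_left hn).mp (h4 ▸ hp4))
    rw [hΔeq] at hd
    have hpD : (p : ℤ) ∣ D := hp'.dvd_of_dvd_pow ((hp'.dvd_mul.mp hd).resolve_left hW')
    have hpN := hND p hp hpD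
    have h2p : p ≠ 2 := by rintro rfl; exact hpN (by exact_mod_cast h2N)
    have h3p : p ≠ 3 := by
      rintro rfl
      exact hpN ⟨2 ^ 12 * 3 ^ 6 * W.Δ, by rw [hN]; push_cast; ring⟩
    rw [h4'] at hp4
    exact hpN (LT2.Hesse.dvd_of_dvd_hD_of_dvd_hC4 W hp h2p h3p hW' hpD hp4).2
  · rw [hΔeq]; exact (dvd_pow hDq (by norm_num)).mul_left _
  · intro ℓ hℓ hg hg' hℓ3
    have hℓ2 : ℓ ≠ 2 := by rintro rfl; exact hg (by exact_mod_cast h2)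
    exact LT2.Hesse.three_dvd_apOfModel_sub W W' hΔ hΔ' u N hcast4 hcast6 ℓ hℓ hg hg' hℓ2 hℓ3
  · refine LT2.Hesse.exists_torsion_equiv (l := (u : ℚ)) (m := (N : ℚ)) ⟨?_, ?_, ?_, ?_⟩
    · rw [map_c₄, map_c₄, map_c₆]; exact hcast4
    · rw [map_c₆, map_c₄, map_c₆]; exact hcast6
    · rw [map_Δ]; simpa using hΔ
    · rw [map_Δ]; simpa using hΔ'

end FLTA.Full
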