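import Fermat.Agent.LT2.HesseCong
import Fermat.Agent.EllTorsion.GaloisDet
import Fermat.Agent.EllTorsion.FrobTwo

/-!
# Congruence of traces at every good prime, `2` included
-/

set_option autoImplicit false

noncomputable section

open scoped Classical
open scoped WeierstrassCurve.Affine
open WeierstrassCurve WeierstrassCurve.Affine WeierstrassCurve.Affine.Point
open FLTA.EllReducible FLTA.LT2.Hesse

namespace FLTA.Full

local notation "Qbar" => AlgebraicClosure ℚ

/-- The trace of a Frobenius at a good prime `ℓ ≠ p` (2 included) is `a_ℓ` mod `p`, for odd `p`. -/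
theorem galoisTrace_frobenius_all (W : WeierstrassCurve ℤ) (hΔ : W.Δ ≠ 0) (p : ℕ)
    [Fact p.Prime] (hp2 : p ≠ 2) (ℓ : ℕ) (hℓ : ℓ.Prime)
    (hgood : W.IsGoodPrimeFor ℓ) (hℓp : ℓ ≠ p)
    (A : ValuationSubring (AlgebraicClosure ℚ)) (hA : A.LiesOverPrime ℓ)
    (σ : AlgebraicClosure ℚ ≃ₐ[ℚ] AlgebraicClosure ℚ) (hσ : A.IsFrobeniusAt σ ℓ) :
    galoisTrace (K := AlgebraicClosure ℚ) ℚ (W.map (Int.castRingHom ℚ)) p σ =
      (W.apOfModel ℓ : ZMod p) := by
  have hp : p.Prime := Fact.out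
  set M := Submodule.torsionBy ℤ ((W.map (Int.castRingHom ℚ))⁄(AlgebraicClosure ℚ)).Point p
  have hcard : Nat.card M = p ^ 2 := EllTorsion.natCard_torsionBy_intModel W hΔ hp.ne_zero
  have : Finite M := Nat.finite_of_card_ne_zero (hcard ▸ pow_ne_zero 2 hp.ne_zero)
  have : Module.Finite (ZMod p) M := Module.Finite.of_finite
  have hrank : Module.finrank (ZMod p) M = 2 := by
    have h := Module.natCard_eq_pow_finrank (K := ZMod p) (V := M)
    rw [hcard, Nat.card_zmod] at h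
    exact (Nat.pow_right_injective hp.two_le h).symm
  set f := galoisRepModuleEnd (K := AlgebraicClosure ℚ) ℚ (W.map (Int.castRingHom ℚ)) p σ with hf
  have hdet : LinearMap.det f = (ℓ : ZMod p) :=
    EllTorsion.det_galoisRepModuleEnd_frobenius W hΔ p ℓ hℓ hgood hℓp A hA σ hσ
  have hquad : ∀ x : M, f (f x) - (W.apOfModel ℓ : ZMod p) • f x + (ℓ : ZMod p) • x = 0 := by
    intro x
    have hx : p • (x : ((W.map (Int.castRingHom ℚ))⁄(AlgebraicClosure ℚ)).Point) = 0 := by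
      have := (Submodule.mem_torsionBy_iff _ _).mp x.2
      rwa [natCast_zsmul] at this
    have h := EllTorsion.frobenius_quadratic_all W hΔ hℓ hgood hA hσ (hp.odd_of_ne_two hp2)
      (fun h => hℓp ((Nat.prime_dvd_prime_iff_eq hℓ hp).mp h)) _ hx
    rw [Int.cast_smul_eq_zsmul, Nat.cast_smul_eq_nsmul]
    exact Subtype.ext h
  let b := Module.finBasisOfFinrankEq (ZMod p) M hrank
  -- Cayley-Hamilton
  have hCH : ∀ x : M, f (f x) - LinearMap.trace (ZMod p) M f • f x + (ℓ : ZMod p) • x = 0 := by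
    intro x
    have h := LinearMap.aeval_self_charpoly f
    rw [← LinearMap.charpoly_toMatrix f b, Matrix.charpoly_fin_two, LinearMap.det_toMatrix,
      ← LinearMap.trace_eq_matrix_trace (ZMod p) b, hdet] at h
    have hx := LinearMap.congr_fun h x
    rw [Nat.cast_smul_eq_nsmul]
    simpa [sq, Module.End.mul_apply, Algebra.algebraMap_eq_smul_one] using hx
  have hfinj : Function.Injective f := fun x y hxy =>
    smul_left_cancel σ (by simpa [hf] using hxy)
  obtain ⟨x, hx⟩ : ∃ x : M, x ≠ 0 := by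
    by_contra h
    push Not at h
    have : Nat.card M ≤ 1 :=
      Finite.card_le_one_iff_subsingleton.mpr ⟨fun a b => (h a).trans (h b).symm⟩
    rw [hcard] at this
    have := Nat.pow_le_pow_left hp.two_le 2
    omega
  rw [galoisTrace_def, ← hf]
  by_contra hne
  have key : ((W.apOfModel ℓ : ZMod p) - LinearMap.trace (ZMod p) M f) • f x = 0 := by
    have := (hCH x).trans (hquad x).symm
    rw [sub_smul, sub_eq_zero]
    linear_combination (norm := abel) this
  rcases smul_eq_zero.mp key with h | h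
  · exact hne (sub_eq_zero.mp h).symm
  · exact hx (hfinj (h.trans (map_zero f).symm))

/-- A member of the family has traces congruent mod 3 (away from 3). -/
theorem three_dvd_apOfModel_sub_all (W V : WeierstrassCurve ℤ) (hΔ : W.Δ ≠ 0) (hΔ' : V.Δ ≠ 0)
    (l m : ℚ) (h4 : (V.c₄ : ℚ) = hC4 (W.c₄ : ℚ) (W.c₆ : ℚ) l m)
    (h6 : (V.c₆ : ℚ) = hC6 (W.c₄ : ℚ) (W.c₆ : ℚ) l m)
    (ℓ : ℕ) (hℓ : ℓ.Prime) (hg : W.IsGoodPrimeFor ℓ) (hg' : V.IsGoodPrimeFor ℓ)
    (hℓ3 : ℓ ≠ 3) : (3 : ℤ) ∣ (V.apOfModel ℓ - W.apOfModel ℓ) := by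
  have hm : IsMember (W.map (Int.castRingHom ℚ)) (V.map (Int.castRingHom ℚ)) l m :=
    ⟨by rw [map_c₄, map_c₄, map_c₆]; exact h4, by rw [map_c₆, map_c₆, map_c₄]; exact h6,
      by rw [map_Δ]; simpa using hΔ, by rw [map_Δ]; simpa using hΔ'⟩
  obtain ⟨φ, hφ⟩ := LT2.Hesse.exists_torsion_equiv hm
  have : Fact (Nat.Prime 3) := ⟨Nat.prime_three⟩
  obtain ⟨A, hA⟩ := FLTA.Galois.exists_liesOverPrime hℓ
  obtain ⟨σ, hσ⟩ := FLTA.Galois.exists_isFrobeniusAt hℓ hA
  have e := galoisTrace_frobenius_all W hΔ 3 (by norm_num) ℓ hℓ hg hℓ3 A hA σ hσ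
  have e' := galoisTrace_frobenius_all V hΔ' 3 (by norm_num) ℓ hℓ hg' hℓ3 A hA σ hσ
  let Φ : Tors (W.map (Int.castRingHom ℚ)) 3 ≃ₗ[ZMod 3] Tors (V.map (Int.castRingHom ℚ)) 3 :=
    { φ with map_smul' := fun c x => (φ.toAddMonoidHom.toZModLinearMap 3).map_smul c x }
  have hconj : Φ.conj (galoisRepModuleEnd ℚ (W.map (Int.castRingHom ℚ)) 3 σ)
      = galoisRepModuleEnd ℚ (V.map (Int.castRingHom ℚ)) 3 σ := by
    refine LinearMap.ext fun y => ?_
    rw [LinearEquiv.conj_apply_apply]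
    exact (hφ σ (Φ.symm y)).trans (congrArg _ (Φ.apply_symm_apply y))
  have htr : galoisTrace (K := Qbar) ℚ (V.map (Int.castRingHom ℚ)) 3 σ
      = galoisTrace (K := Qbar) ℚ (W.map (Int.castRingHom ℚ)) 3 σ := by
    rw [galoisTrace_def, galoisTrace_def, ← hconj]
    exact LinearMap.trace_conj' _ Φ
  have : ((V.apOfModel ℓ - W.apOfModel ℓ : ℤ) : ZMod 3) = 0 := by
    push_cast
    rw [sub_eq_zero]
    exact (e'.symm.trans htr).trans e
  exact_mod_cast (ZMod.intCast_zmod_eq_zero_iff_dvd _ 3).1 this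

end FLTA.Full
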