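import Fermat.Agent.LT2.Main
import Fermat.Agent.Full.ResidualTrace
import Fermat.Agent.Full.ResidualCompanion

/-!
# Residual modularity at 3 under the condition at 2
-/

set_option autoImplicit false

open WeierstrassCurve

namespace FLTA.Full

/-- Residual modularity at 3 under the condition at 2 only. -/
theorem residual_three_of_twoOK (W : WeierstrassCurve ℤ) (hΔ : W.Δ ≠ 0)
    (hW : W.IsSemistableModel) (h2 : LT2.TwoOK W) :
    ∃ M : ℕ, 0 < M ∧ W.IsResiduallyModularOfLevel 3 M ∧ Squarefree M := by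
  obtain ⟨E, l, m, hE, h4, h6⟩ := exists_companion_member W hΔ hW h2
  exact ⟨E.conductorLevel, E.conductorLevel_pos,
    FLTA.Wiring.isResiduallyModularOfLevel_congr
      (fun ℓ hℓ hd => (E.prime_dvd_conductorLevel_iff hE.Δ_ne_zero hℓ).mpr hd)
      (fun ℓ hℓ hg hg' hℓ3 =>
        three_dvd_apOfModel_sub_all W E hΔ hE.Δ_ne_zero l m h4 h6 ℓ hℓ hg hg' hℓ3)
      (FLTA.Wiring.isResiduallyModularOfLevel_of_isModularModelOfLevel Nat.prime_three
        (LT2.companion_modular hE)), E.squarefree_conductorLevel⟩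

end FLTA.Full
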