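import Fermat.Agent.LT2.SwitchCurve
import Fermat.Agent.Elliptic.Switch.Members
import Fermat.Agent.LevelLowering.GlobalModel

/-!
# The switch at 5 for every semistable curve
-/

set_option autoImplicit false

open WeierstrassCurve

namespace FLTA.Full

/-- A model with multiplicative reduction at `2` has, after a translation over `ℤ`, `a₁ = 1` and
`a₃ = 0`. -/
theorem exists_normalised_two (W : WeierstrassCurve ℤ) (hW : W.IsSemistableModel)
    (h2 : (2 : ℤ) ∣ W.Δ) :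
    ∃ C : VariableChange ℤ, C.u = 1 ∧ (C • W).a₁ = 1 ∧ (C • W).a₃ = 0 := by
  have hc4 : ¬ (2 : ℤ) ∣ W.c₄ := by exact_mod_cast hW 2 Nat.prime_two (by exact_mod_cast h2)
  rcases Int.even_or_odd W.a₁ with ⟨j, hj⟩ | ⟨j, hj⟩
  · exfalso
    refine hc4 ⟨8 * (j ^ 2 + W.a₂) ^ 2 - 12 * W.b₄, ?_⟩
    simp only [WeierstrassCurve.c₄, WeierstrassCurve.b₂, hj]
    ring
  · refine ⟨⟨1, W.a₃, -j, -(W.a₃ * (j + 1))⟩, rfl, ?_, ?_⟩
    · simp [variableChange_a₁, hj]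
    · simp [variableChange_a₃, hj]; ring

/-- Every semistable curve has a switch curve at `5` to which the companion argument applies. -/
theorem exists_switch_five_all (W : WeierstrassCurve ℤ) (hΔ : W.Δ ≠ 0)
    (hW : W.IsSemistableModel) :
    ∃ W' : WeierstrassCurve ℤ, W'.Δ ≠ 0 ∧ W'.IsSemistableModel ∧ W'.ModRepIsIrreducible 3 ∧
      LT2.TwoOK W' ∧ LT2.TraceCong 5 W W' := by
  by_cases h2 : (2 : ℤ) ∣ W.Δ
  · obtain ⟨C, hu, h1, h3⟩ := exists_normalised_two W hW h2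
    have hΔC : (C • W).Δ = W.Δ := by simp [variableChange_Δ, hu]
    have hc4C : (C • W).c₄ = W.c₄ := by simp [variableChange_c₄, hu]
    have hWC : (C • W).IsSemistableModel := fun p hp hd => by
      rw [hc4C]; exact hW p hp (hΔC ▸ hd)
    obtain ⟨W', hΔ', hss, hirr, hok, -, hcong⟩ :=
      LT2.SwitchTwo.exists_switch_of_multTwo (C • W) (hΔC ▸ hΔ) hWC h1 h3 (hΔC ▸ h2)
    refine ⟨W', hΔ', hss, hirr, hok, fun ℓ hℓ hg hg' hℓ5 => ?_⟩
    have hap : W.apOfModel ℓ = (C • W).apOfModel ℓ := by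
      refine LevelLowering.apOfModel_eq_of_variableChange (C := C.map (Int.castRingHom ℚ))
        (WeierstrassCurve.map_variableChange W C (Int.castRingHom ℚ)) hℓ ?_ ?_ ?_ ?_ ?_ <;>
        simp [VariableChange.map, hu, hℓ.ne_one]
    rw [hap]
    refine hcong ℓ hℓ ?_ hg' hℓ5
    show ¬ (ℓ : ℤ) ∣ (C • W).Δ
    rwa [hΔC]
  · obtain ⟨W', hΔ', hss, hirr, hmod, φ, hφ⟩ :=
      FLTA.Elliptic.Switch.exists_member W hΔ hW 2 (by norm_num)
    refine ⟨W', hΔ', hss, hirr, Or.inl fun hd => h2 ?_, fun ℓ hℓ hg hg' hℓ5 =>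
      FLTA.Elliptic.Switch.five_dvd_apOfModel_sub W W' hΔ hΔ' φ hφ hmod ℓ hℓ hg hg' hℓ5⟩
    have h := congrArg WeierstrassCurve.Δ hmod
    rw [WeierstrassCurve.map_Δ, WeierstrassCurve.map_Δ] at h
    have h0 : ((W'.Δ : ℤ) : ZMod 2) = 0 :=
      (ZMod.intCast_zmod_eq_zero_iff_dvd W'.Δ 2).mpr (by exact_mod_cast hd)
    have h' : ((W.Δ : ℤ) : ZMod 2) = 0 := h0 ▸ h.symm
    exact_mod_cast (ZMod.intCast_zmod_eq_zero_iff_dvd W.Δ 2).mp h'

end FLTA.Full
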