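import Fermat.Agent.Full.AuxPrime
import Fermat.Agent.Full.Member
import Fermat.Agent.Full.IrrFive
import Fermat.Agent.Full.Residual
import Fermat.Agent.Full.Switch
import Fermat.Agent.Final.Chain
import Fermat.Agent.RT.LowerP
import Fermat.Agent.RT.LowerQAvoid
import Fermat.Agent.S51

/-!
# Modularity of semistable curves

If `E[5]` is irreducible, switch at 5 to a curve to which the companion argument applies and lift
twice. Otherwise `E[3]` is irreducible; either the companion argument applies to `E` itself, or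
`E` is ramified at 2 mod 3 and a member of its Hesse pencil has irreducible 5-torsion.
-/

set_option autoImplicit false

open WeierstrassCurve
open FLTA.EllReducible

namespace FLTA.Full

theorem liftSquarefree : Final.LiftSquarefree :=
  Final.liftSquarefree RT.lowerP RT.lowerQ

/-- Residual modularity at a squarefree level from a congruent modular curve. -/
theorem residual_of_exact {W W' : WeierstrassCurve ℤ} {p : ℕ} (hp : p.Prime)
    (hmod : Mlc1IsModularModelOfExactConductorLevel W') (hcong : LT2.TraceCong p W W') :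
    ∃ N : ℕ, 0 < N ∧ W.IsResiduallyModularOfLevel p N ∧ Squarefree N := by
  obtain ⟨N, hN, hsq, hsupp, hm⟩ := hmod
  exact ⟨N, hN, Wiring.isResiduallyModularOfLevel_congr (fun ℓ hℓ hd => (hsupp ℓ hℓ).mpr hd)
    (fun ℓ hℓ hg hg' hne => hcong ℓ hℓ hg hg' hne)
    (Wiring.isResiduallyModularOfLevel_of_isModularModelOfLevel hp hm), hsq⟩

theorem exact_of_five (W : WeierstrassCurve ℤ) (hΔ : W.Δ ≠ 0) (hW : W.IsSemistableModel)
    (h5 : W.ModRepIsIrreducible 5) : Mlc1IsModularModelOfExactConductorLevel W := by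
  obtain ⟨W', hΔ', hW', h3, h2, hcong⟩ := exists_switch_five_all W hΔ hW
  obtain ⟨M, hM, hres, hsq⟩ := residual_three_of_twoOK W' hΔ' hW' h2
  obtain ⟨N, hN, hres', hsq'⟩ := residual_of_exact (by norm_num)
    (liftSquarefree 3 (Or.inl rfl) W' hΔ' hW' h3 M hsq hres) hcong
  exact liftSquarefree 5 (Or.inr rfl) W hΔ hW h5 N hsq' hres'

/-- Every semistable curve is modular of its conductor level. -/
theorem semistable_exact (W : WeierstrassCurve ℤ) (hΔ : W.Δ ≠ 0) (hW : W.IsSemistableModel) :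
    Mlc1IsModularModelOfExactConductorLevel W := by
  by_cases h5 : W.ModRepIsIrreducible 5
  · exact exact_of_five W hΔ hW h5
  have h3 : W.ModRepIsIrreducible 3 :=
    (Fermat.Agent.S51.result W hΔ hW).resolve_right h5
  by_cases h2 : LT2.TwoOK W
  · obtain ⟨M, hM, hres, hsq⟩ := residual_three_of_twoOK W hΔ hW h2
    exact liftSquarefree 3 (Or.inl rfl) W hΔ hW h3 M hsq hres
  obtain ⟨q, hq, hqS, hq1, ⟨x₀, hx₀⟩, A, hA, τ, hτ, hneg⟩ :=
    exists_aux_prime W hΔ hW h3 h2 ({2, 3} ∪ W.Δ.natAbs.primeFactors)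
  simp only [Finset.mem_union, Finset.mem_insert, Finset.mem_singleton, not_or,
    Nat.mem_primeFactors] at hqS
  have hq5 : 5 ≤ q := by
    rcases Nat.lt_or_ge q 5 with h | h
    · have := hq.two_le
      interval_cases q <;> simp_all (config := { decide := true })
    · exact h
  have hqΔ : ¬ (q : ℤ) ∣ W.Δ := fun h =>
    hqS.2 ⟨hq, Int.natCast_dvd.mp h, Int.natAbs_ne_zero.mpr hΔ⟩
  have h2Δ : (2 : ℤ) ∣ W.Δ := by
    by_contra h
    exact h2 (Or.inl h)
  obtain ⟨W', hΔ', hW', -, hqΔ', hcong, φ, hφ⟩ :=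
    exists_hesse_member W hΔ hW h2Δ q hq hq5 hqΔ x₀ hx₀
  have hneg' : ∀ P : Tors (W'.map (Int.castRingHom ℚ)) 3, τ • P = -P := fun P => by
    obtain ⟨P, rfl⟩ := φ.surjective P
    rw [← hφ, hneg, map_neg]
  obtain ⟨N, hN, hres, hsq⟩ := residual_of_exact Nat.prime_three
    (exact_of_five W' hΔ' hW'
      (modRepIsIrreducible_five_of_prime W' hΔ' hW' q hq hq5 hq1 hqΔ' A hA τ hτ hneg')) hcong
  exact liftSquarefree 3 (Or.inl rfl) W hΔ hW h3 N hsq hres

end FLTA.Full
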