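/-
An unramified prime leaves a squarefree level, for every odd prime `p`.
-/
import Fermat.Agent.RT.LowerQAvoid
import Fermat.Agent.RT.LowerP

set_option autoImplicit false
set_option synthInstance.maxHeartbeats 400000
set_option maxHeartbeats 2000000

noncomputable section

open AlgebraicCurve ModularCurve WeierstrassCurve IsLocalRing

namespace FLTA.Full

open FLTA.RT FLTA.RT.LowerQGlue
open FLTA.LevelLowering (planeRep)

variable {W : WeierstrassCurve ℤ} {p : ℕ} [Fact p.Prime]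

/-- Mazur's step for `p ≥ 5`. -/
theorem mazur_step (hΔ : W.Δ ≠ 0) (hp5 : 5 ≤ p) (hirr : W.ModRepIsIrreducible p) (M q : ℕ)
    [NeZero M] [NeZero q] [hq : Fact q.Prime] (hsq : Squarefree (M * q)) (hqp : q ≠ p)
    (hq1 : (q : ZMod p) ≠ 1) (hunr : TorsUnramifiedAt W p q) (S : Finset ℕ) (hpS : p ∈ S)
    (hlev : ∀ ℓ : ℕ, ℓ.Prime → ℓ ∣ M * q → ℓ ∈ S)
    (hbad : ∀ ℓ : ℕ, ℓ.Prime → ¬ W.IsGoodPrimeFor ℓ → ℓ ∈ S)
    (hsys : LevelLowering.HasSystem p (fun ℓ => W.apOfModel ℓ) (M * q) S) :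
    LevelLowering.HasSystem p (fun ℓ => W.apOfModel ℓ) M S := by
  have hqM : ¬ q ∣ M := fun h =>
    hq.out.ne_one (Nat.isUnit_iff.mp (hsq q (mul_dvd_mul_right h q)))
  have hp2 : p ≠ 2 := by omega
  refine (LevelLowering.exists_curveData_or_eigenform W hΔ p hp2 hirr (M * q) M
    (dvd_mul_right M q) S hpS hlev hbad hsys).resolve_right fun ⟨G⟩ => ?_
  obtain ⟨A, hA⟩ := FLTA.Galois.exists_liesOverPrime hq.out
  have := FLTA.Galois.charP_residueField hq.out hA
  have := FLTA.Galois.isAlgClosed_residueField A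
  have : ExpChar (ResidueField A) q := ExpChar.prime hq.out
  have : PerfectRing (ResidueField A) q := PerfectField.toPerfectRing q
  exact false_of_curveGlobalData hA hqM hΔ hp2 hqp hq1 hirr hlev G (hunr A hA)
    (redDvdAt_of_five_le M q hp5 hqp hsq hq1 A hA hqM)

/-- `p ≥ 5` leaves the level at a prime of good reduction. -/
theorem lower_at_p (hΔ : W.Δ ≠ 0) (hp5 : 5 ≤ p) (hirr : W.ModRepIsIrreducible p) {M : ℕ}
    (hsq : Squarefree M) (hgood : W.IsGoodPrimeFor p) (hpM : p ∣ M)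
    (hmod : W.IsResiduallyModularOfLevel p M) : W.IsResiduallyModularOfLevel p (M / p) := by
  have hp : p.Prime := Fact.out
  have hp2 : p ≠ 2 := by omega
  obtain ⟨M, rfl⟩ := hpM
  rw [Nat.mul_div_cancel_left M hp.pos]
  obtain ⟨hcop, -, hsqM⟩ := Nat.squarefree_mul_iff.mp hsq
  have hpM : ¬ p ∣ M := hp.coprime_iff_not_dvd.mp hcop
  have : NeZero M := ⟨hsqM.ne_zero⟩
  have : NeZero (p * M) := ⟨mul_ne_zero hp.ne_zero hsqM.ne_zero⟩
  rcases LevelLowering.exists_curveData_or_residuallyModular W hΔ p hp2 hirr (p * M) M rfl hmod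
    with h | ⟨⟨D⟩⟩
  · exact h
  · have hlev : ∀ ℓ : ℕ, ℓ.Prime → ℓ ∣ p * M →
        ℓ ∈ ({p} ∪ (p * M).primeFactors ∪ W.Δ.natAbs.primeFactors : Finset ℕ) := fun ℓ hℓ h => by
      simp [Nat.mem_primeFactors, hℓ, h, hp.ne_zero, hsqM.ne_zero]
    by_cases hord : (p : ℤ) ∣ W.apOfModel p
    · exact (LowerPSS.false_of_curveData hΔ hp2 hgood hord (mul_comm p M) hpM
        (by simp) hlev D).elim
    · exact (LowerPOrd.false_of_curveData hΔ hp2 (Or.inl ⟨hgood, hord⟩) (mul_comm p M) hpM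
        (fun h3 => absurd h3 (by omega)) (by simp) hlev D).elim

/-- An unramified prime leaves a squarefree level which contains `p` only if it has to. -/
theorem lower_at_q (hΔ : W.Δ ≠ 0) (hss : W.IsSemistableModel) (hp5 : 5 ≤ p)
    (hirr : W.ModRepIsIrreducible p) {N q : ℕ} (hsf : Squarefree N)
    (hbad : p ∣ N → ¬ W.IsGoodPrimeFor p) (hq : q.Prime) (hqp : q ≠ p) (hqN : q ∣ N)
    (hunr : TorsUnramifiedAt W p q) (hres : W.IsResiduallyModularOfLevel p N) :
    W.IsResiduallyModularOfLevel p (N / q) := by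
  classical
  have hp2 : p ≠ 2 := by omega
  have hp : p.Prime := Fact.out
  have hN : N ≠ 0 := hsf.ne_zero
  have hNq : N / q ≠ 0 := (Nat.div_pos (Nat.le_of_dvd hN.bot_lt hqN) hq.pos).ne'
  have hdown : ∀ L, L ∣ N → ¬ q ∣ L → RT.HasSystem W p L →
      W.IsResiduallyModularOfLevel p (N / q) :=
    fun L hL hqL h => res_of_dvd hΔ hp2 (dvd_div_of_not_dvd hq hqN hL hqL) hNq h
  by_cases hq1 : (q : ZMod p) = 1
  swap
  · have : NeZero (N / q) := ⟨hNq⟩
    have : NeZero q := ⟨hq.ne_zero⟩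
    have : Fact q.Prime := ⟨hq⟩
    have hmul : N / q * q = N := Nat.div_mul_cancel hqN
    have hlev : ∀ ℓ : ℕ, ℓ.Prime → ℓ ∣ N / q * q →
        ℓ ∈ ({p} ∪ N.primeFactors ∪ W.Δ.natAbs.primeFactors : Finset ℕ) := fun ℓ hℓ hd => by
      simp [Nat.mem_primeFactors, hℓ, hmul ▸ hd, hN]
    have h' := mazur_step hΔ hp5 hirr (N / q) q (by rw [hmul]; exact hsf) hqp hq1 hunr
      ({p} ∪ N.primeFactors ∪ W.Δ.natAbs.primeFactors) (by simp) hlev
      (fun ℓ hℓ hb => by
        simp only [Finset.mem_union, Nat.mem_primeFactors]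
        exact Or.inr ⟨hℓ, Int.natCast_dvd.mp (not_not.mp hb), Int.natAbs_ne_zero.mpr hΔ⟩)
      (by rw [hmul]; exact system_of_res hΔ hN hres)
    exact res_of_dvd hΔ hp2 dvd_rfl hNq (hasSystem_of_ll h')
  have hsysN := hasSystem_of_res hΔ hN hres
  by_cases htr : TraceAtQ hΔ p q
  swap
  · obtain ⟨L, hL, hqL, hsys⟩ := exists_hasSystem_of_trace' steinberg hp2 hsf hq hqp hsysN htr
    exact hdown L hL hqL hsys
  have hq2 : q ≠ 2 := by
    rintro rfl
    push_cast at hq1
    exact one_ne_zero (α := ZMod p) (by linear_combination hq1)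
  by_cases hlow : p ∣ N ∧ ∃ L, L ∣ N / p ∧ RT.HasSystem W p L
  · obtain ⟨hpN, L, hL, hsysL⟩ := hlow
    have hNp : N / p ∣ N := Nat.div_dvd_of_dvd hpN
    have hNp0 : N / p ≠ 0 := ne_zero_of_dvd_ne_zero hN hNp
    have hpNp : ¬ p ∣ N / p := fun h => Nat.squarefree_iff_prime_squarefree.mp hsf p hp
      (Nat.mul_dvd_of_dvd_div hpN h)
    have hqNp : q ∣ N / p := dvd_div_of_not_dvd hp hpN hqN fun h =>
      hqp ((Nat.prime_dvd_prime_iff_eq hp hq).mp h).symm
    obtain ⟨K, hK, hqK, hsysK⟩ := avoidanceStep W hΔ p (N / p) q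
      { three_le := by omega
        elliptic := fun h3 => absurd h3 (by omega)
        semistable := hss
        irreducible := hirr
        squarefree := hsf.squarefree_of_dvd hNp
        at_p := fun h => absurd h hpNp
        prime := hq
        ne_two := hq2
        ne := hqp
        dvd := hqNp
        unramified := planeRep_unramified hΔ hunr
        system := hasSystem_of_res hΔ hNp0 (res_of_dvd hΔ hp2 hL hNp0 hsysL) } hq1 htr
    exact hdown K (hK.trans hNp) hqK hsysK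
  · obtain ⟨K, hK, hqK, hsysK⟩ := avoidanceStep W hΔ p N q
      { three_le := by omega
        elliptic := fun h3 => absurd h3 (by omega)
        semistable := hss
        irreducible := hirr
        squarefree := hsf
        at_p := fun hpN => ⟨not_not.mp (hbad hpN), fun L hL hs => hlow ⟨hpN, L, hL, hs⟩⟩
        prime := hq
        ne_two := hq2
        ne := hqp
        dvd := hqN
        unramified := planeRep_unramified hΔ hunr
        system := hsysN } hq1 htr
    exact hdown K hK hqK hsysK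

/-- **An unramified prime leaves a squarefree level.** -/
theorem residuallyModular_div (hΔ : W.Δ ≠ 0) (hss : W.IsSemistableModel) (hp2 : p ≠ 2)
    (hirr : W.ModRepIsIrreducible p) {M q : ℕ} (hsf : Squarefree M) (hq : q.Prime) (hqp : q ≠ p)
    (hqM : q ∣ M) (hunr : TorsUnramifiedAt W p q) (hres : W.IsResiduallyModularOfLevel p M) :
    W.IsResiduallyModularOfLevel p (M / q) := by
  have hp : p.Prime := Fact.out
  have hP : ∀ N, Squarefree N → W.IsGoodPrimeFor p → p ∣ N →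
      W.IsResiduallyModularOfLevel p N → W.IsResiduallyModularOfLevel p (N / p) := by
    intro N hN hg hpN hr
    by_cases h3 : p = 3
    · exact RT.lowerP p W ⟨Or.inl h3, hΔ, hss, hirr⟩ N hN hg hpN hr
    · exact lower_at_p hΔ (hp.five_le_of_ne_two_of_ne_three hp2 h3) hirr hN hg hpN hr
  have hQ : ∀ N, Squarefree N → (p ∣ N → ¬ W.IsGoodPrimeFor p) → q ∣ N →
      W.IsResiduallyModularOfLevel p N → W.IsResiduallyModularOfLevel p (N / q) := by
    intro N hN hb hqN hr
    by_cases h3 : p = 3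
    · exact RT.lowerQ p W ⟨Or.inl h3, hΔ, hss, hirr⟩ N q hN hb hq hqp hqN hunr hr
    · exact lower_at_q hΔ hss (hp.five_le_of_ne_two_of_ne_three hp2 h3) hirr hN hb hq hqp hqN
        hunr hr
  by_cases hpg : p ∣ M ∧ W.IsGoodPrimeFor p
  · obtain ⟨hpM, hg⟩ := hpg
    have hMp : M / p ∣ M := Nat.div_dvd_of_dvd hpM
    have hsfp : Squarefree (M / p) := hsf.squarefree_of_dvd hMp
    have hqMp : q ∣ M / p := dvd_div_of_not_dvd hp hpM hqM fun h =>
      hqp ((Nat.prime_dvd_prime_iff_eq hp hq).mp h).symm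
    have hres' := hQ (M / p) hsfp (fun h => absurd (Nat.mul_dvd_of_dvd_div hpM h)
      (Nat.squarefree_iff_prime_squarefree.mp hsf p hp)) hqMp (hP M hsf hg hpM hres)
    have hMpq : M / p / q ≠ 0 := ne_zero_of_dvd_ne_zero hsfp.ne_zero (Nat.div_dvd_of_dvd hqMp)
    have hMq : M / q ≠ 0 := ne_zero_of_dvd_ne_zero hsf.ne_zero (Nat.div_dvd_of_dvd hqM)
    refine res_of_dvd hΔ hp2 ?_ hMq (hasSystem_of_res hΔ hMpq hres')
    rw [Nat.div_div_eq_div_mul, mul_comm, ← Nat.div_div_eq_div_mul]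
    exact Nat.div_dvd_of_dvd (dvd_div_of_not_dvd hq hqM hpM fun h =>
      hqp ((Nat.prime_dvd_prime_iff_eq hq hp).mp h))
  · exact hQ M hsf (fun hd hg => hpg ⟨hd, hg⟩) hqM hres

end FLTA.Full

end
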