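import Fermat.Agent.Petersson.HeckeAdjoint
import Fermat.Agent.Hecke.Eigen

/-!
# The degeneracy map `f ↦ f ∣ diag(q, 1)`
-/

set_option autoImplicit false

noncomputable section

open CongruenceSubgroup ModularFormClass UpperHalfPlane Matrix.SpecialLinearGroup
open scoped MatrixGroups ModularForm

namespace FLTA.Full

variable {L q : ℕ} [NeZero L] [NeZero q]

omit [NeZero L] in
theorem exists_rat_heckeDiagMatrix :
    ∃ g : GL (Fin 2) ℚ,
      ModularForm.heckeDiagMatrix q = Matrix.GeneralLinearGroup.map (Rat.castHom ℝ) g := by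
  refine ⟨Matrix.GeneralLinearGroup.mkOfDetNeZero !![(q : ℚ), 0; 0, 1]
    (by rw [Matrix.det_fin_two_of]; simpa using NeZero.ne q), ?_⟩
  apply Units.ext
  rw [ModularForm.val_heckeDiagMatrix (NeZero.ne q)]
  ext i j
  fin_cases i <;> fin_cases j <;> simp [Matrix.GeneralLinearGroup.mkOfDetNeZero]

/-- `f ∣ diag(q, 1)` as a cusp form of level `L q`. -/
def diagForm (f : CuspForm (Gamma0 L) 2) : CuspForm (Gamma0 (L * q)) 2 where
  toFun := Petersson.diagSlash q f
  slash_action_eq' := by
    rintro _ ⟨γ, hγ, rfl⟩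
    exact Petersson.diagSlash_slash (NeZero.ne q) f hγ
  holo' := (CuspFormClass.holo f).slash 2 _
  zero_at_cusps' {c} hc := by
    obtain ⟨g, hg⟩ := exists_rat_heckeDiagMatrix (q := q)
    rw [Subgroup.IsArithmetic.isCusp_iff_isCusp_SL2Z, isCusp_SL2Z_iff] at hc
    obtain ⟨c, rfl⟩ := hc
    refine OnePoint.IsZeroAt.smul_iff.mp (f.zero_at_cusps' ?_)
    rw [Subgroup.IsArithmetic.isCusp_iff_isCusp_SL2Z, isCusp_SL2Z_iff]
    exact ⟨g • c, by rw [hg, ← Rat.coe_castHom, OnePoint.map_smul]⟩

theorem diagForm_apply (f : CuspForm (Gamma0 L) 2) (τ : ℍ) :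
    diagForm (q := q) f τ = (q : ℂ) * f (ModularForm.heckeDiagMatrix q • τ) := by
  show Petersson.diagSlash q f τ = _
  rw [Petersson.diagSlash, ModularForm.slash_heckeDiagMatrix_apply 2 (NeZero.ne q) _ τ]
  norm_num

theorem qCoeff_diagForm (f : CuspForm (Gamma0 L) 2) (n : ℕ) :
    qCoeff (diagForm (q := q) f) n = if q ∣ n then (q : ℂ) * qCoeff f (n / q) else 0 := by
  set c : ℕ → ℂ := fun n => if q ∣ n then (q : ℂ) * qCoeff f (n / q) else 0 with hc
  haveI : Fact (IsCusp OnePoint.infty
      (Subgroup.map (Matrix.SpecialLinearGroup.mapGL ℝ) (Gamma0 L))) :=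
    ⟨Subgroup.isCusp_of_mem_strictPeriods one_pos (one_mem_strictPeriods_Gamma0 L)⟩
  have hsum : ∀ τ : ℍ,
      HasSum (fun m => c m • Function.Periodic.qParam 1 τ ^ m) (diagForm (q := q) f τ) := by
    intro τ
    have hq : Function.Periodic.qParam 1 (ModularForm.heckeDiagMatrix q • τ : ℍ) =
        Function.Periodic.qParam 1 τ ^ q := by
      simp only [Function.Periodic.qParam, ← Complex.exp_nat_mul,
        ModularForm.coe_heckeDiagMatrix_smul (NeZero.ne q)]
      congr 1
      push_cast
      ring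
    have hs := (UpperHalfPlane.hasSum_qExpansion one_pos
      (SlashInvariantFormClass.periodic_comp_ofComplex f (one_mem_strictPeriods_Gamma0 L))
      (CuspFormClass.holo f) (ModularFormClass.bdd_at_infty f)
      (ModularForm.heckeDiagMatrix q • τ)).mul_left (q : ℂ)
    rw [hq] at hs
    rw [diagForm_apply]
    have hinj : Function.Injective (fun m : ℕ => q * m) := mul_right_injective₀ (NeZero.ne q)
    refine (hinj.hasSum_iff fun x hx => ?_).mp ?_
    · have : ¬ q ∣ x := by
        rintro ⟨d, rfl⟩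
        exact hx ⟨d, rfl⟩
      simp [hc, this]
    · have e : ((fun m => c m • Function.Periodic.qParam 1 (τ : ℂ) ^ m) ∘ fun m => q * m) =
          fun i => (q : ℂ) * ((qExpansion 1 ⇑f).coeff i •
            (Function.Periodic.qParam 1 (τ : ℂ) ^ q) ^ i) := funext fun i => by
        rw [Function.comp_apply, hc]
        simp only [dvd_mul_right, if_true, qCoeff, smul_eq_mul, ← pow_mul,
          Nat.mul_div_cancel_left _ (Nat.pos_of_ne_zero (NeZero.ne q))]
        ring
      rw [e]
      exact hs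
  exact (ModularFormClass.qExpansion_coeff_unique one_pos
    (one_mem_strictPeriods_Gamma0 (L * q)) hsum n).symm

end FLTA.Full
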