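import Fermat.Prelude.Def_FormalHecke_Eigensystem
import Mathlib

/-!
# The multiplicative sequence of a Hecke recursion
-/

set_option autoImplicit false

namespace FLTA.Full

variable {R : Type*} [CommRing R] (e A : ℕ → R)

/-- The values at the powers of `ℓ`. -/
def powSeq (ℓ : ℕ) : ℕ → R
  | 0 => 1
  | 1 => A ℓ
  | r + 2 => A ℓ * powSeq ℓ (r + 1) - e ℓ * powSeq ℓ r

/-- The multiplicative sequence with values `A` and recursion `e` at the primes. -/
def heckeSeq (n : ℕ) : R :=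
  if n = 0 then 0 else n.factorization.prod (powSeq e A)

theorem heckeSeq_zero : heckeSeq e A 0 = 0 := if_pos rfl

theorem heckeSeq_one : heckeSeq e A 1 = 1 := by
  simp [heckeSeq]

theorem heckeSeq_mul {m n : ℕ} (h : m.Coprime n) :
    heckeSeq e A (m * n) = heckeSeq e A m * heckeSeq e A n := by
  rcases eq_or_ne m 0 with rfl | hm
  · simp [heckeSeq]
  rcases eq_or_ne n 0 with rfl | hn
  · simp [heckeSeq]
  rw [heckeSeq, heckeSeq, heckeSeq, if_neg (mul_ne_zero hm hn), if_neg hm, if_neg hn,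
    Nat.factorization_mul hm hn, Finsupp.prod_add_index_of_disjoint]
  simpa [Nat.support_factorization] using h.disjoint_primeFactors

theorem heckeSeq_prime_pow {ℓ : ℕ} (hℓ : ℓ.Prime) (r : ℕ) :
    heckeSeq e A (ℓ ^ r) = powSeq e A ℓ r := by
  rw [heckeSeq, if_neg (pow_ne_zero _ hℓ.ne_zero), hℓ.factorization_pow,
    Finsupp.prod_single_index (by rfl)]

theorem heckeSeq_prime {ℓ : ℕ} (hℓ : ℓ.Prime) : heckeSeq e A ℓ = A ℓ := by
  simpa [powSeq] using heckeSeq_prime_pow e A hℓ 1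

theorem map_heckeSeq {S : Type*} [CommRing S] (φ : R →+* S) (n : ℕ) :
    φ (heckeSeq e A n) = heckeSeq (fun ℓ => φ (e ℓ)) (fun ℓ => φ (A ℓ)) n := by
  have key : ∀ ℓ r, φ (powSeq e A ℓ r) = powSeq (fun ℓ => φ (e ℓ)) (fun ℓ => φ (A ℓ)) ℓ r :=
    fun ℓ r => by
      induction r using Nat.twoStepInduction with
      | zero => simp [powSeq]
      | one => simp [powSeq]
      | more r h₁ h₂ => simp [powSeq, h₁, h₂]
  by_cases hn : n = 0
  · simp [hn, heckeSeq]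
  · simp only [heckeSeq, if_neg hn, Finsupp.prod, map_prod, key]

/-- Uniqueness of the sequence. -/
theorem eq_heckeSeq {c : ℕ → R} (h0 : c 0 = 0) (h1 : c 1 = 1)
    (hmul : ∀ m n : ℕ, m.Coprime n → c (m * n) = c m * c n)
    (hp : ∀ ℓ : ℕ, ℓ.Prime → c ℓ = A ℓ)
    (hrec : ∀ ℓ r : ℕ, ℓ.Prime → c (ℓ ^ (r + 2)) = c ℓ * c (ℓ ^ (r + 1)) - e ℓ * c (ℓ ^ r))
    (n : ℕ) : c n = heckeSeq e A n := by
  have key : ∀ ℓ r, ℓ.Prime → c (ℓ ^ r) = powSeq e A ℓ r := fun ℓ r hℓ => by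
    induction r using Nat.twoStepInduction with
    | zero => simp [powSeq, h1]
    | one => simp [powSeq, hp ℓ hℓ]
    | more r h₁ h₂ => rw [hrec ℓ r hℓ, hp ℓ hℓ, h₁, h₂]; rfl
  induction n using Nat.recOnPosPrimePosCoprime with
  | prime_pow ℓ r hℓ _ => rw [key ℓ r hℓ, heckeSeq_prime_pow e A hℓ]
  | zero => rw [h0, heckeSeq_zero]
  | one => rw [h1, heckeSeq_one]
  | coprime a b _ _ hab ha hb => rw [hmul a b hab, ha, hb, heckeSeq_mul e A hab]

theorem isEigensystem_heckeSeq : FormalHecke.IsEigensystem e (heckeSeq e A) := by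
  refine ⟨heckeSeq_one e A, fun ℓ hℓ n => ?_⟩
  rw [heckeSeq_prime e A hℓ]
  rcases eq_or_ne n 0 with rfl | hn
  · simp [heckeSeq]
  obtain ⟨r, m, hm, rfl⟩ := Nat.exists_eq_pow_mul_and_not_dvd hn ℓ hℓ.ne_one
  have hc : ∀ k, (ℓ ^ k).Coprime m := fun k =>
    ((hℓ.coprime_iff_not_dvd).mpr hm).pow_left k
  rcases r with _ | r
  · rw [pow_zero, one_mul, if_neg hm, mul_zero, add_zero, heckeSeq_mul e A (pow_one ℓ ▸ hc 1),
      heckeSeq_prime e A hℓ]
  · have hd : ℓ ∣ ℓ ^ (r + 1) * m := dvd_mul_of_dvd_left (dvd_pow_self ℓ r.succ_ne_zero) m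
    have h1 : ℓ * (ℓ ^ (r + 1) * m) = ℓ ^ (r + 2) * m := by ring
    have h2 : ℓ ^ (r + 1) * m / ℓ = ℓ ^ r * m := by
      rw [pow_succ', mul_assoc, Nat.mul_div_cancel_left _ hℓ.pos]
    rw [if_pos hd, h1, h2, heckeSeq_mul e A (hc _), heckeSeq_mul e A (hc _),
      heckeSeq_mul e A (hc _), heckeSeq_prime_pow e A hℓ, heckeSeq_prime_pow e A hℓ,
      heckeSeq_prime_pow e A hℓ, powSeq]
    ring

end FLTA.Full
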