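import Fermat.Agent.Full.S46Degeneracy
import Fermat.Agent.Full.S46Seq
import Fermat.Agent.Endgame.Lifting
import Fermat.Agent.RT.LowerQ.Raise

/-!
# The deprived form of a normalised eigenform and its mod three realisation
-/

set_option autoImplicit false

noncomputable section

open CongruenceSubgroup ModularFormClass EisensteinWeightOne WeierstrassCurve

namespace FLTA.Full

variable {N : ℕ} [NeZero N] {f : CuspForm (Gamma0 N) 2}

omit [NeZero N] in
theorem qCoeff_prime_mul_of_dvd (hf : f.IsNormalizedEigenform) {q : ℕ} (hq : q.Prime)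
    (hqN : q ∣ N) (m : ℕ) : qCoeff f (q * m) = qCoeff f q * qCoeff f m := by
  rcases eq_or_ne m 0 with rfl | hm0
  · simp [Hecke.qCoeff_zero_index]
  obtain ⟨r, m, hm, rfl⟩ := Nat.exists_eq_pow_mul_and_not_dvd hm0 q hq.ne_one
  have hc : ∀ k, (q ^ k).Coprime m := fun k => ((hq.coprime_iff_not_dvd).mpr hm).pow_left k
  rcases r with _ | r
  · rw [pow_zero, one_mul, hf.qCoeff_mul_of_coprime q m (pow_one q ▸ hc 1)]
  · rw [← mul_assoc, ← pow_succ', hf.qCoeff_mul_of_coprime _ m (hc _),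
      hf.qCoeff_mul_of_coprime _ m (hc _), hf.qCoeff_prime_pow_of_dvd q r hq hqN, mul_assoc]

/-- The form with the coefficients divisible by a prime of `s` removed. -/
theorem exists_deprived (hf : f.IsNormalizedEigenform) (s : Finset ℕ)
    (hs : ∀ q ∈ s, q.Prime ∧ q ∣ N) :
    ∃ g : CuspForm (Gamma0 (N * ∏ q ∈ s, q)) 2,
      ∀ n, qCoeff g n = if ∀ q ∈ s, ¬ q ∣ n then qCoeff f n else 0 := by
  classical
  induction s using Finset.induction_on with
  | empty =>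
    haveI : NeZero (N * ∏ q ∈ (∅ : Finset ℕ), q) := ⟨by simpa using NeZero.ne N⟩
    exact ⟨RT.LowerQ.inclForm (dvd_mul_right N _) f, fun n => by
      rw [RT.LowerQ.coe_inclForm, if_pos (by simp)]⟩
  | insert q s hqs ih =>
    obtain ⟨g, hg⟩ := ih fun r hr => hs r (Finset.mem_insert_of_mem hr)
    obtain ⟨hq, hqN⟩ := hs q (Finset.mem_insert_self q s)
    haveI : NeZero q := ⟨hq.ne_zero⟩
    haveI : NeZero (N * ∏ r ∈ s, r) := ⟨mul_ne_zero (NeZero.ne N)
      (Finset.prod_ne_zero_iff.mpr fun r hr => (hs r (Finset.mem_insert_of_mem hr)).1.ne_zero)⟩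
    haveI : NeZero (N * ∏ r ∈ insert q s, r) := ⟨mul_ne_zero (NeZero.ne N)
      (Finset.prod_ne_zero_iff.mpr fun r hr => (hs r hr).1.ne_zero)⟩
    have h1 : (N * ∏ r ∈ s, r) ∣ N * ∏ r ∈ insert q s, r :=
      mul_dvd_mul_left N (Finset.prod_dvd_prod_of_subset _ _ _ (Finset.subset_insert q s))
    have h2 : (N * ∏ r ∈ s, r) * q ∣ N * ∏ r ∈ insert q s, r :=
      dvd_of_eq (by rw [Finset.prod_insert hqs]; ring)
    refine ⟨RT.LowerQ.inclForm h1 g -
      ((q : ℂ)⁻¹ * qCoeff f q) • RT.LowerQ.inclForm h2 (diagForm g), fun n => ?_⟩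
    rw [Hecke.qCoeff_sub, Hecke.qCoeff_smul, RT.LowerQ.coe_inclForm, RT.LowerQ.coe_inclForm,
      qCoeff_diagForm]
    have hq0 : (q : ℂ) ≠ 0 := Nat.cast_ne_zero.mpr hq.ne_zero
    by_cases hqn : q ∣ n
    · obtain ⟨m, rfl⟩ := hqn
      have hiff : (∀ r ∈ s, ¬ r ∣ q * m) ↔ ∀ r ∈ s, ¬ r ∣ m := forall₂_congr fun r hr => by
        have hr' := (hs r (Finset.mem_insert_of_mem hr)).1
        have hne : ¬ r ∣ q := fun h => hqs (((Nat.prime_dvd_prime_iff_eq hr' hq).mp h) ▸ hr)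
        rw [hr'.dvd_mul]
        tauto
      rw [if_pos (dvd_mul_right q m), Nat.mul_div_cancel_left _ hq.pos, hg, hg,
        if_neg (show ¬ ∀ r ∈ insert q s, ¬ r ∣ q * m from
          fun h => h q (Finset.mem_insert_self q s) (dvd_mul_right q m)),
        qCoeff_prime_mul_of_dvd hf hq hqN]
      simp only [hiff]
      split_ifs
      · field_simp
        ring
      · simp
    · rw [if_neg hqn, mul_zero, sub_zero, hg]
      refine if_congr ?_ rfl rfl
      simp [hqn]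

theorem not_cube_dvd (hsq : Squarefree N) {q : ℕ} (hq : q.Prime) : ¬ q ^ 3 ∣ N * N := by
  intro h
  have hqN : q ∣ N := (hq.dvd_mul.mp ((dvd_pow_self q three_ne_zero).trans h)).elim id id
  obtain ⟨k, rfl⟩ := hqN
  have hk : ¬ q ∣ k := fun hd => hq.ne_one (Nat.isUnit_iff.mp (hsq q (mul_dvd_mul_left q hd)))
  rw [show q * k * (q * k) = q ^ 2 * (k * k) by ring, pow_succ q 2,
    Nat.mul_dvd_mul_iff_left (pow_pos hq.pos 2)] at h
  exact hk ((hq.dvd_mul.mp h).elim id id)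

/-- A modular curve of squarefree level gives a mod three eigensystem at level `N ^ 2`. -/
theorem exists_latticeRealized (W : WeierstrassCurve ℤ) (hsq : Squarefree N)
    (hsupp : ∀ q : ℕ, q.Prime → (q ∣ N ↔ (q : ℤ) ∣ W.Δ)) (hf : f.IsNormalizedEigenform)
    (hfW : ∀ p : ℕ, p.Prime → W.IsGoodPrimeFor p → ¬ p ∣ N →
      qCoeff f p = (W.apOfModel p : ℂ)) :
    ∃ (M : ℕ) (_ : NeZero M) (a : ℕ → ℤ),
      CuspForm.HasIntegralBasis M ∧
      FormalHecke.IsEigensystem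
        (fun ℓ => if ℓ ∣ M then 0 else ((chiNegThree ℓ : ℤ) : ℤ)) a ∧
      CuspForm.IsLatticeRealized M a ∧
      (∀ q : ℕ, q.Prime → q ≠ 3 → ¬ q ^ 3 ∣ M) ∧
      ∀ ℓ : ℕ, ℓ.Prime → W.IsGoodPrimeFor ℓ → ¬ ℓ ∣ M → ℓ ≠ 3 →
        (3 : ℤ) ∣ (a ℓ - W.apOfModel ℓ) := by
  classical
  obtain ⟨g, hg⟩ := exists_deprived hf N.primeFactors fun q hq =>
    ⟨Nat.prime_of_mem_primeFactors hq, Nat.dvd_of_mem_primeFactors hq⟩
  have hMeq : N * ∏ q ∈ N.primeFactors, q = N * N := by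
    rw [Nat.prod_primeFactors_of_squarefree hsq]
  generalize hM : N * ∏ q ∈ N.primeFactors, q = M at g hMeq
  haveI : NeZero M := ⟨hMeq ▸ mul_ne_zero (NeZero.ne N) (NeZero.ne N)⟩
  have hdvd : ∀ ℓ : ℕ, ℓ.Prime → (ℓ ∣ M ↔ ℓ ∣ N) := fun ℓ hℓ => by
    rw [hMeq, hℓ.dvd_mul, or_self]
  let A : ℕ → ℤ := fun ℓ => if ℓ ∣ M then 0 else W.apOfModel ℓ
  let e : ℕ → ℤ := fun ℓ => if ℓ ∣ M then 0 else ((chiNegThree ℓ : ℤ) : ℤ)
  let e₂ : ℕ → ℤ := fun ℓ => if ℓ ∣ M then 0 else (ℓ : ℤ)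
  have hgood : ∀ n, (∀ q ∈ N.primeFactors, ¬ q ∣ n) ↔ n.Coprime N := fun n => by
    constructor
    · exact fun h => Nat.coprime_of_dvd fun q hq hn hN =>
        h q (Nat.mem_primeFactors.mpr ⟨hq, hN, NeZero.ne N⟩) hn
    · exact fun h q hq hn => (Nat.prime_of_mem_primeFactors hq).ne_one
        (Nat.eq_one_of_dvd_coprimes h hn (Nat.dvd_of_mem_primeFactors hq))
  let c : ℕ → ℂ := fun n => if n.Coprime N then qCoeff f n else 0
  have hgc : ∀ n, qCoeff g n = c n := fun n => by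
    rw [hg n]; exact if_congr (hgood n) rfl rfl
  have hc : ∀ n, c n = ((heckeSeq e₂ A n : ℤ) : ℂ) := by
    intro n
    rw [show ((heckeSeq e₂ A n : ℤ) : ℂ) = _ from map_heckeSeq e₂ A (Int.castRingHom ℂ) n]
    refine eq_heckeSeq _ _ (by simp [c, Hecke.qCoeff_zero_index])
      (by simp [c, hf.qCoeff_one]) (fun a b hab => ?_) (fun ℓ hℓ => ?_) (fun ℓ r hℓ => ?_) n
    · simp only [c]
      by_cases ha : a.Coprime N
      · by_cases hb : b.Coprime N
        · rw [if_pos ha, if_pos hb, if_pos (Nat.Coprime.mul_left ha hb),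
            hf.qCoeff_mul_of_coprime a b hab]
        · rw [if_neg hb, if_neg (mt (fun h => (Nat.coprime_mul_iff_left.mp h).2) hb), mul_zero]
      · rw [if_neg ha, if_neg (mt (fun h => (Nat.coprime_mul_iff_left.mp h).1) ha), zero_mul]
    · by_cases hd : ℓ ∣ N
      · simp [c, A, hℓ.coprime_iff_not_dvd, hd, (hdvd ℓ hℓ).mpr hd]
      · simp [c, A, hℓ.coprime_iff_not_dvd, hd, mt (hdvd ℓ hℓ).mp hd,
          hfW ℓ hℓ (fun h => hd ((hsupp ℓ hℓ).mpr h)) hd]
    · by_cases hd : ℓ ∣ N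
      · simp [c, e₂, Nat.coprime_pow_left_iff, hℓ.coprime_iff_not_dvd, hd, (hdvd ℓ hℓ).mpr hd]
      · have hco : ∀ k, (ℓ ^ k).Coprime N := fun k => (hℓ.coprime_iff_not_dvd.mpr hd).pow_left k
        simp [c, e₂, hco, hℓ.coprime_iff_not_dvd, hd, mt (hdvd ℓ hℓ).mp hd,
          hf.qCoeff_prime_pow_of_not_dvd ℓ r hℓ hd]
  refine ⟨M, inferInstance, heckeSeq e A, Periods.hasIntegralBasis M, isEigensystem_heckeSeq e A,
    ⟨g, fun n => ?_, heckeSeq e₂ A, fun n => ((hgc n).trans (hc n)).symm, fun n => ?_⟩,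
    fun q hq _ => hMeq ▸ not_cube_dvd hsq hq, fun ℓ hℓ _ hℓM _ => ?_⟩
  · rw [hgc, hc]
    exact intCast_mem _ _
  · refine (ZMod.intCast_zmod_eq_zero_iff_dvd _ 3).mp ?_
    have hee : (fun ℓ => ((e₂ ℓ : ℤ) : ZMod 3)) = fun ℓ => ((e ℓ : ℤ) : ZMod 3) := funext fun ℓ => by
      simp only [e, e₂]
      split_ifs
      · rfl
      · rw [Int.cast_natCast, Endgame.natCast_zmod_three_eq_chiNegThree]
    rw [Int.cast_sub, Endgame.coeff_bridgeProduct_zmod,
      show ((heckeSeq e₂ A n : ℤ) : ZMod 3) = _ from map_heckeSeq e₂ A (Int.castRingHom (ZMod 3)) n,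
      show ((heckeSeq e A n : ℤ) : ZMod 3) = _ from map_heckeSeq e A (Int.castRingHom (ZMod 3)) n]
    simp only [eq_intCast, hee, sub_self]
  · simp [heckeSeq_prime e A hℓ, A, hℓM]

end FLTA.Full
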